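/-
S56 design sprint (finding 1523/1524), node F3-L1 in p-th-root form, helper17.
Replaces p-adic exp/log in Fontaine's lifting step:
for `a b : R` with `a ^ (p - 1) = p * b`, `a, b` in the Jacobson radical and `p * a` regular,
the map `u ↦ u ^ p` is injective on `1 + a R`; if moreover `R` is `I`-adically complete for an
ideal `I ∋ a, b`, it is a bijection from `1 + a R` onto `1 + p a R`.
Mathlib only.
-/
import Mathlib

set_option autoImplicit false

namespace Fermat.Agent.TW.Font.PRoot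

open Finset

variable {R : Type*} [CommRing R]

/-- `q1 n a y = Σ_{j < n} (C(n+2, j+2) / (n+2)) a^j y^(j+1)`; for `p = n + 2` prime,
`(1 + a y)^p = 1 + p a y + p a^2 y q1 + a^p y^p`. -/
def q1 (n : ℕ) (a y : R) : R :=
  ∑ j ∈ range n, (((n + 2).choose (j + 2) / (n + 2) : ℕ) : R) * a ^ j * y ^ (j + 1)

theorem one_add_mul_pow_succ_succ {n : ℕ} (hp : (n + 2).Prime) (a y : R) :
    (1 + a * y) ^ (n + 2)
      = 1 + ((n + 2 : ℕ) : R) * (a * y) + ((n + 2 : ℕ) : R) * a ^ 2 * (y * q1 n a y)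
        + a ^ (n + 2) * y ^ (n + 2) := by
  rw [add_comm 1 (a * y), add_pow]
  rw [sum_range_succ, sum_range_succ', sum_range_succ']
  simp only [one_pow, mul_one, pow_zero, Nat.choose_zero_right, Nat.cast_one, Nat.choose_self,
    zero_add, pow_one, Nat.choose_one_right]
  have hterm : ∀ j ∈ range n,
      (a * y) ^ (j + 1 + 1) * (((n + 2).choose (j + 1 + 1) : ℕ) : R)
        = ((n + 2 : ℕ) : R) * a ^ 2
            * (y * ((((n + 2).choose (j + 2) / (n + 2) : ℕ) : R) * a ^ j * y ^ (j + 1))) := by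
    intro j hj
    have hj' : j < n := mem_range.mp hj
    have hdvd : (n + 2) ∣ (n + 2).choose (j + 2) :=
      hp.dvd_choose_self (by omega) (by omega)
    obtain ⟨c, hc⟩ := hdvd
    have hdiv : (n + 2).choose (j + 2) / (n + 2) = c := by
      rw [hc]; exact Nat.mul_div_cancel_left c (by omega)
    rw [show j + 1 + 1 = j + 2 by ring, hdiv, hc]
    push_cast
    ring
  rw [sum_congr rfl hterm, ← mul_sum, ← mul_sum]
  unfold q1
  push_cast
  ring

/-- the bracket: `(1 + a y)^p = 1 + p a (y + a y q1 + b y^p)` when `a^(p-1) = p b`. -/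
theorem one_add_mul_pow_eq {n : ℕ} (hp : (n + 2).Prime) {a b : R}
    (hab : a ^ (n + 1) = ((n + 2 : ℕ) : R) * b) (y : R) :
    (1 + a * y) ^ (n + 2)
      = 1 + ((n + 2 : ℕ) : R) * a * (y + a * (y * q1 n a y) + b * y ^ (n + 2)) := by
  rw [one_add_mul_pow_succ_succ hp]
  have : a ^ (n + 2) = a * (((n + 2 : ℕ) : R) * b) := by rw [← hab]; ring
  rw [this]
  ring

theorem sub_dvd_q1_sub (n : ℕ) (a y y' : R) :
    (y - y') ∣ (y * q1 n a y - y' * q1 n a y') := by
  unfold q1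
  rw [mul_sum, mul_sum, ← sum_sub_distrib]
  refine dvd_sum fun j _ => ?_
  have h := sub_dvd_pow_sub_pow y y' (j + 2)
  have e : y * ((((n + 2).choose (j + 2) / (n + 2) : ℕ) : R) * a ^ j * y ^ (j + 1))
      - y' * ((((n + 2).choose (j + 2) / (n + 2) : ℕ) : R) * a ^ j * y' ^ (j + 1))
      = (((n + 2).choose (j + 2) / (n + 2) : ℕ) : R) * a ^ j * (y ^ (j + 2) - y' ^ (j + 2)) := by
    ring
  rw [e]
  exact Dvd.dvd.mul_left h _

/-- **(PR-inj)**, general form: `u ↦ u^p` is injective on `1 + a R`. -/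
theorem eq_of_pow_eq {n : ℕ} (hp : (n + 2).Prime) {a b : R}
    (hab : a ^ (n + 1) = ((n + 2 : ℕ) : R) * b)
    (ha : a ∈ Ideal.jacobson (⊥ : Ideal R)) (hb : b ∈ Ideal.jacobson (⊥ : Ideal R))
    (hreg : ∀ x : R, ((n + 2 : ℕ) : R) * a * x = 0 → x = 0) {y y' : R}
    (h : (1 + a * y) ^ (n + 2) = (1 + a * y') ^ (n + 2)) : y = y' := by
  rw [one_add_mul_pow_eq hp hab, one_add_mul_pow_eq hp hab] at h
  have h0 : ((n + 2 : ℕ) : R) * a *
      ((y + a * (y * q1 n a y) + b * y ^ (n + 2))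
        - (y' + a * (y' * q1 n a y') + b * y' ^ (n + 2))) = 0 := by
    have := add_left_cancel h
    rw [mul_sub, this, sub_self]
  have h1 := hreg _ h0
  obtain ⟨r, hr⟩ := sub_dvd_q1_sub n a y y'
  obtain ⟨s, hs⟩ := sub_dvd_pow_sub_pow y y' (n + 2)
  have h2 : (y - y') * (1 + (a * r + b * s)) = 0 := by
    have : (y + a * (y * q1 n a y) + b * y ^ (n + 2))
        - (y' + a * (y' * q1 n a y') + b * y' ^ (n + 2))
        = (y - y') + a * (y * q1 n a y - y' * q1 n a y') + b * (y ^ (n + 2) - y' ^ (n + 2)) := by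
      ring
    rw [this, hr, hs] at h1
    rw [← h1]; ring
  have hmem : a * r + b * s ∈ Ideal.jacobson (⊥ : Ideal R) :=
    Ideal.add_mem _ (Ideal.mul_mem_right _ _ ha) (Ideal.mul_mem_right _ _ hb)
  have hunit : IsUnit (1 + (a * r + b * s)) := by
    have := (Ideal.mem_jacobson_bot.mp hmem) 1
    rwa [mul_one, add_comm] at this
  have := hunit.mul_left_eq_zero.mp h2
  exact sub_eq_zero.mp this

/-- **(PR-inj)**: a `p`-torsion element of `1 + a R` is `1`. -/
theorem eq_zero_of_pow_eq_one {n : ℕ} (hp : (n + 2).Prime) {a b : R}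
    (hab : a ^ (n + 1) = ((n + 2 : ℕ) : R) * b)
    (ha : a ∈ Ideal.jacobson (⊥ : Ideal R)) (hb : b ∈ Ideal.jacobson (⊥ : Ideal R))
    (hreg : ∀ x : R, ((n + 2 : ℕ) : R) * a * x = 0 → x = 0) {y : R}
    (h : (1 + a * y) ^ (n + 2) = 1) : y = 0 := by
  refine eq_of_pow_eq hp hab ha hb hreg (y' := 0) ?_
  rw [h, mul_zero, add_zero, one_pow]


/-- A map that improves congruences modulo `I^n` to congruences modulo `I^(n+1)` has a fixed point
in an `I`-adically complete ring. -/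
theorem exists_fixed_point (I : Ideal R) [IsAdicComplete I R] (Φ : R → R)
    (hΦ : ∀ (k : ℕ) (x y : R), x - y ∈ I ^ k → Φ x - Φ y ∈ I ^ (k + 1)) : ∃ x, Φ x = x := by
  let f : ℕ → R := fun k => Φ^[k] 0
  have hf : ∀ k, f (k + 1) = Φ (f k) := fun k => Function.iterate_succ_apply' Φ k 0
  have hstep : ∀ k, f (k + 1) - f k ∈ I ^ k := by
    intro k
    induction k with
    | zero => simp
    | succ k ih =>
      have := hΦ k _ _ ih
      rwa [← hf (k + 1), ← hf k] at this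
  have hmem : ∀ {m k : ℕ}, m ≤ k → f m - f k ∈ I ^ m := by
    intro m k hmk
    induction k, hmk using Nat.le_induction with
    | base => simp
    | succ k hk ih =>
      have h1 : f (k + 1) - f k ∈ I ^ m := Ideal.pow_le_pow_right hk (hstep k)
      have : f m - f (k + 1) = (f m - f k) - (f (k + 1) - f k) := by ring
      rw [this]
      exact Ideal.sub_mem _ ih h1
  have hcauchy : ∀ {m k}, m ≤ k → f m ≡ f k [SMOD (I ^ m • ⊤ : Submodule R R)] := by
    intro m k hmk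
    rw [SModEq.sub_mem, smul_eq_mul, Ideal.mul_top]
    exact hmem hmk
  obtain ⟨L, hL⟩ := IsPrecomplete.prec (I := I) (M := R) inferInstance hcauchy
  have hL' : ∀ k, f k - L ∈ I ^ k := by
    intro k
    have := hL k
    rwa [SModEq.sub_mem, smul_eq_mul, Ideal.mul_top] at this
  refine ⟨L, ?_⟩
  rw [IsHausdorff.eq_iff_smodEq (I := I)]
  intro k
  rw [SModEq.sub_mem, smul_eq_mul, Ideal.mul_top]
  have h2 : Φ L - Φ (f k) ∈ I ^ (k + 1) :=
    hΦ k L (f k) (by rw [← neg_sub]; exact neg_mem (hL' k))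
  have h3 : f (k + 1) - L ∈ I ^ (k + 1) := hL' (k + 1)
  have : Φ L - L = (Φ L - Φ (f k)) + (f (k + 1) - L) := by rw [hf]; ring
  rw [this]
  exact Ideal.pow_le_pow_right (Nat.le_succ k) (Ideal.add_mem _ h2 h3)

/-- **(PR-surj)**: every element of `1 + p a R` is the `p`-th power of an element of `1 + a R`. -/
theorem exists_pth_root {n : ℕ} (hp : (n + 2).Prime) {a b : R}
    (hab : a ^ (n + 1) = ((n + 2 : ℕ) : R) * b) (I : Ideal R) [IsAdicComplete I R]
    (ha : a ∈ I) (hb : b ∈ I) (z : R) :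
    ∃ y, (1 + a * y) ^ (n + 2) = 1 + ((n + 2 : ℕ) : R) * a * z := by
  have hΦ : ∀ (k : ℕ) (x y : R), x - y ∈ I ^ k →
      (fun y => z - a * (y * q1 n a y) - b * y ^ (n + 2)) x
        - (fun y => z - a * (y * q1 n a y) - b * y ^ (n + 2)) y ∈ I ^ (k + 1) := by
    intro k x y hxy
    obtain ⟨r, hr⟩ := sub_dvd_q1_sub n a x y
    obtain ⟨s, hs⟩ := sub_dvd_pow_sub_pow x y (n + 2)
    have e : (z - a * (x * q1 n a x) - b * x ^ (n + 2))
        - (z - a * (y * q1 n a y) - b * y ^ (n + 2))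
        = -(a * ((x - y) * r)) - b * ((x - y) * s) := by
      rw [← hr, ← hs]; ring
    show (z - a * (x * q1 n a x) - b * x ^ (n + 2))
        - (z - a * (y * q1 n a y) - b * y ^ (n + 2)) ∈ I ^ (k + 1)
    rw [e, pow_succ']
    refine Ideal.sub_mem _ (neg_mem ?_) ?_
    · exact Ideal.mul_mem_mul ha (Ideal.mul_mem_right _ _ hxy)
    · exact Ideal.mul_mem_mul hb (Ideal.mul_mem_right _ _ hxy)
  obtain ⟨y, hy⟩ := exists_fixed_point I _ hΦ
  refine ⟨y, ?_⟩
  rw [one_add_mul_pow_eq hp hab]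
  have h : z - a * (y * q1 n a y) - b * y ^ (n + 2) = y := hy
  have : y + a * (y * q1 n a y) + b * y ^ (n + 2) = z := by
    linear_combination (-1 : R) * h
  rw [this]

/-- The subgroup `1 + a R` of the units of `R` (all of `1 + a R` when `a` is in the radical). -/
def onePlus (a : R) : Subgroup Rˣ where
  carrier := {u | ∃ y : R, (u : R) = 1 + a * y}
  one_mem' := ⟨0, by simp⟩
  mul_mem' := by
    rintro u v ⟨y, hy⟩ ⟨y', hy'⟩
    exact ⟨y + y' + a * y * y', by rw [Units.val_mul, hy, hy']; ring⟩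
  inv_mem' := by
    rintro u ⟨y, hy⟩
    refine ⟨-(y * ((u⁻¹ : Rˣ) : R)), ?_⟩
    have h : (u : R) * ((u⁻¹ : Rˣ) : R) = 1 := Units.mul_inv u
    rw [hy] at h
    linear_combination h

theorem mem_onePlus {a : R} {u : Rˣ} : u ∈ onePlus a ↔ ∃ y : R, (u : R) = 1 + a * y := Iff.rfl

/-- For `a` in the Jacobson radical every `1 + a y` is a unit. -/
theorem isUnit_one_add_mul {a : R} (ha : a ∈ Ideal.jacobson (⊥ : Ideal R)) (y : R) :
    IsUnit (1 + a * y) := by
  have := (Ideal.mem_jacobson_bot.mp ha) y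
  rwa [add_comm] at this

theorem pow_mem_onePlus {n : ℕ} (hp : (n + 2).Prime) {a b : R}
    (hab : a ^ (n + 1) = ((n + 2 : ℕ) : R) * b) {u : Rˣ} (hu : u ∈ onePlus a) :
    u ^ (n + 2) ∈ onePlus (((n + 2 : ℕ) : R) * a) := by
  obtain ⟨y, hy⟩ := hu
  exact ⟨_, by rw [Units.val_pow_eq_pow_val, hy, one_add_mul_pow_eq hp hab]⟩

/-- **(PR-inj)** on the subgroup `1 + a R`. -/
theorem pow_injOn_onePlus {n : ℕ} (hp : (n + 2).Prime) {a b : R}
    (hab : a ^ (n + 1) = ((n + 2 : ℕ) : R) * b)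
    (ha : a ∈ Ideal.jacobson (⊥ : Ideal R)) (hb : b ∈ Ideal.jacobson (⊥ : Ideal R))
    (hreg : ∀ x : R, ((n + 2 : ℕ) : R) * a * x = 0 → x = 0)
    {u v : Rˣ} (hu : u ∈ onePlus a) (hv : v ∈ onePlus a) (h : u ^ (n + 2) = v ^ (n + 2)) :
    u = v := by
  obtain ⟨y, hy⟩ := hu
  obtain ⟨y', hy'⟩ := hv
  have h' : (1 + a * y) ^ (n + 2) = (1 + a * y') ^ (n + 2) := by
    rw [← hy, ← hy', ← Units.val_pow_eq_pow_val, ← Units.val_pow_eq_pow_val, h]
  have := eq_of_pow_eq hp hab ha hb hreg h'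
  exact Units.ext (by rw [hy, hy', this])

/-- `p`-torsion in `1 + a R` is trivial. -/
theorem eq_one_of_pow_eq_one_onePlus {n : ℕ} (hp : (n + 2).Prime) {a b : R}
    (hab : a ^ (n + 1) = ((n + 2 : ℕ) : R) * b)
    (ha : a ∈ Ideal.jacobson (⊥ : Ideal R)) (hb : b ∈ Ideal.jacobson (⊥ : Ideal R))
    (hreg : ∀ x : R, ((n + 2 : ℕ) : R) * a * x = 0 → x = 0)
    {u : Rˣ} (hu : u ∈ onePlus a) (h : u ^ (n + 2) = 1) : u = 1 :=
  pow_injOn_onePlus hp hab ha hb hreg hu (onePlus a).one_mem (by rw [h, one_pow])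

/-- **(PR-surj)** on subgroups: every element of `1 + p a R` has a unique `p`-th root in
`1 + a R`. -/
theorem existsUnique_pth_root_onePlus {n : ℕ} (hp : (n + 2).Prime) {a b : R}
    (hab : a ^ (n + 1) = ((n + 2 : ℕ) : R) * b) (I : Ideal R) [IsAdicComplete I R]
    (ha : a ∈ I) (hb : b ∈ I)
    (hreg : ∀ x : R, ((n + 2 : ℕ) : R) * a * x = 0 → x = 0)
    {v : Rˣ} (hv : v ∈ onePlus (((n + 2 : ℕ) : R) * a)) :
    ∃! u : Rˣ, u ∈ onePlus a ∧ u ^ (n + 2) = v := by
  have haJ : a ∈ Ideal.jacobson (⊥ : Ideal R) := IsAdicComplete.le_jacobson_bot I ha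
  have hbJ : b ∈ Ideal.jacobson (⊥ : Ideal R) := IsAdicComplete.le_jacobson_bot I hb
  obtain ⟨z, hz⟩ := hv
  obtain ⟨y, hy⟩ := exists_pth_root hp hab I ha hb z
  obtain ⟨u, hu⟩ := isUnit_one_add_mul haJ y
  have hu1 : u ∈ onePlus a := ⟨y, hu⟩
  have hu2 : u ^ (n + 2) = v := by
    apply Units.ext
    rw [Units.val_pow_eq_pow_val, hu, hy, hz]
  refine ⟨u, ⟨hu1, hu2⟩, ?_⟩
  rintro w ⟨hw1, hw2⟩
  exact pow_injOn_onePlus hp hab haJ hbJ hreg hw1 hu1 (by rw [hw2, hu2])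

/-! ### The same statements for a general prime `p` (no `p = n + 2` normal form). -/

theorem exists_eq_add_two {p : ℕ} (hp : p.Prime) : ∃ n, p = n + 2 :=
  ⟨p - 2, by have := hp.two_le; omega⟩

/-- `hreg` from left-regularity of `p * a`. -/
theorem hreg_of_isLeftRegular {c : R} (h : IsLeftRegular c) : ∀ x : R, c * x = 0 → x = 0 :=
  fun x hx => h (by simpa using hx)

theorem hreg_of_isRegular {c : R} (h : IsRegular c) : ∀ x : R, c * x = 0 → x = 0 :=
  hreg_of_isLeftRegular h.left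

/-- forward direction: `(1 + a R)^p ⊆ 1 + p a R`. -/
theorem exists_pow_prime_eq {p : ℕ} (hp : p.Prime) {a b : R}
    (hab : a ^ (p - 1) = (p : R) * b) (y : R) :
    ∃ t, (1 + a * y) ^ p = 1 + (p : R) * a * t := by
  obtain ⟨n, rfl⟩ := exists_eq_add_two hp
  exact ⟨_, one_add_mul_pow_eq hp (by simpa using hab) y⟩

/-- **(PR-inj)** for a prime `p`. -/
theorem eq_of_pow_prime_eq {p : ℕ} (hp : p.Prime) {a b : R}
    (hab : a ^ (p - 1) = (p : R) * b)
    (ha : a ∈ Ideal.jacobson (⊥ : Ideal R)) (hb : b ∈ Ideal.jacobson (⊥ : Ideal R))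
    (hreg : ∀ x : R, (p : R) * a * x = 0 → x = 0) {y y' : R}
    (h : (1 + a * y) ^ p = (1 + a * y') ^ p) : y = y' := by
  obtain ⟨n, rfl⟩ := exists_eq_add_two hp
  exact eq_of_pow_eq hp (by simpa using hab) ha hb hreg h

/-- **(PR-inj)** for a prime `p`, torsion form. -/
theorem eq_zero_of_pow_prime_eq_one {p : ℕ} (hp : p.Prime) {a b : R}
    (hab : a ^ (p - 1) = (p : R) * b)
    (ha : a ∈ Ideal.jacobson (⊥ : Ideal R)) (hb : b ∈ Ideal.jacobson (⊥ : Ideal R))
    (hreg : ∀ x : R, (p : R) * a * x = 0 → x = 0) {y : R}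
    (h : (1 + a * y) ^ p = 1) : y = 0 := by
  obtain ⟨n, rfl⟩ := exists_eq_add_two hp
  exact eq_zero_of_pow_eq_one hp (by simpa using hab) ha hb hreg h

/-- **(PR-inj)** for a prime `p`, element form: `u = 1 + a y`, `u ^ p = 1` gives `u = 1`. -/
theorem eq_one_of_pow_prime_eq_one {p : ℕ} (hp : p.Prime) {a b : R}
    (hab : a ^ (p - 1) = (p : R) * b)
    (ha : a ∈ Ideal.jacobson (⊥ : Ideal R)) (hb : b ∈ Ideal.jacobson (⊥ : Ideal R))
    (hreg : ∀ x : R, (p : R) * a * x = 0 → x = 0) {u y : R} (hu : u = 1 + a * y)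
    (h : u ^ p = 1) : u = 1 := by
  subst hu
  rw [eq_zero_of_pow_prime_eq_one hp hab ha hb hreg h, mul_zero, add_zero]

/-- **(PR-surj)** for a prime `p`. -/
theorem exists_prime_root {p : ℕ} (hp : p.Prime) {a b : R}
    (hab : a ^ (p - 1) = (p : R) * b) (I : Ideal R) [IsAdicComplete I R]
    (ha : a ∈ I) (hb : b ∈ I) (z : R) :
    ∃ y, (1 + a * y) ^ p = 1 + (p : R) * a * z := by
  obtain ⟨n, rfl⟩ := exists_eq_add_two hp
  exact exists_pth_root hp (by simpa using hab) I ha hb z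

/-- **(PR-surj)** + **(PR-inj)** for a prime `p`: unique root. -/
theorem existsUnique_prime_root {p : ℕ} (hp : p.Prime) {a b : R}
    (hab : a ^ (p - 1) = (p : R) * b) (I : Ideal R) [IsAdicComplete I R]
    (ha : a ∈ I) (hb : b ∈ I) (hreg : ∀ x : R, (p : R) * a * x = 0 → x = 0) (z : R) :
    ∃! y, (1 + a * y) ^ p = 1 + (p : R) * a * z := by
  obtain ⟨y, hy⟩ := exists_prime_root hp hab I ha hb z
  refine ⟨y, hy, fun y' hy' => ?_⟩
  exact eq_of_pow_prime_eq hp hab (IsAdicComplete.le_jacobson_bot I ha)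
    (IsAdicComplete.le_jacobson_bot I hb) hreg (hy'.trans hy.symm)

/-- the `p`-power map as a group isomorphism `1 + a R ≃* 1 + p a R`. -/
theorem pow_prime_bijOn_onePlus {p : ℕ} (hp : p.Prime) {a b : R}
    (hab : a ^ (p - 1) = (p : R) * b) (I : Ideal R) [IsAdicComplete I R]
    (ha : a ∈ I) (hb : b ∈ I) (hreg : ∀ x : R, (p : R) * a * x = 0 → x = 0) :
    Set.BijOn (fun u : Rˣ => u ^ p) (onePlus a : Set Rˣ) (onePlus ((p : R) * a) : Set Rˣ) := by
  obtain ⟨n, rfl⟩ := exists_eq_add_two hp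
  have hab' : a ^ (n + 1) = ((n + 2 : ℕ) : R) * b := by simpa using hab
  have haJ : a ∈ Ideal.jacobson (⊥ : Ideal R) := IsAdicComplete.le_jacobson_bot I ha
  have hbJ : b ∈ Ideal.jacobson (⊥ : Ideal R) := IsAdicComplete.le_jacobson_bot I hb
  refine ⟨fun u hu => pow_mem_onePlus hp hab' hu, fun u hu v hv h => ?_, fun v hv => ?_⟩
  · exact pow_injOn_onePlus hp hab' haJ hbJ hreg hu hv h
  · obtain ⟨u, ⟨hu1, hu2⟩, -⟩ := existsUnique_pth_root_onePlus hp hab' I ha hb hreg hv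
    exact ⟨u, hu1, hu2⟩

end Fermat.Agent.TW.Font.PRoot
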