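import Fermat.Agent.TW.Font.PmCore
import Fermat.Agent.TW.Ram.FontaineP
import Fermat.Agent.CFT.Local.ExtDVR

/-!
# S56, block LOC-flat, F3-L5: Fontaine's property `(P_m)`, `m > p/(p-1)`, for the field of points
of a finite flat group scheme killed by `p`

Layer-B vocabulary of `CFT/Local/ExtDVR`: `O` a complete DVR, `K = Frac O` of characteristic `0`,
`(p : O) ∈ 𝔪_O`.  `B` a commutative cocommutative Hopf `O`-algebra, finite and projective as a module,
`Ω ⊇ K` algebraically closed, all `Ω`-points of `B` killed by `p` (convolution).  `L / K` finite with an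
embedding `j : L → Ω` whose image is generated by the coordinates of the points.  Then
`FontainePAbove O K L (p : O) p (p - 1)` (helper13's literal `(P_m)` for all `m > p/(p-1)`).
-/

set_option autoImplicit false
set_option linter.unusedSectionVars false
set_option linter.overlappingInstances false

namespace Fermat.Agent.TW.Font.Pm

open Coalgebra WithConv IsLocalRing Fermat.Agent.CFT Fermat.Agent.TW.Ram

variable (O K : Type) [CommRing O] [IsDomain O] [IsDiscreteValuationRing O]
  [IsAdicComplete (maximalIdeal O) O]
  [Field K] [Algebra O K] [IsFractionRing O K] [CharZero K]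
  (L : Type) [Field L] [Algebra K L] [FiniteDimensional K L] [Algebra O L] [IsScalarTower O K L]
  (B : Type) [CommRing B] [HopfAlgebra O B] [IsCocomm O B] [Module.Finite O B]
  [Module.Projective O B]
  (Ω : Type) [Field Ω] [Algebra K Ω] [Algebra O Ω] [IsScalarTower O K Ω] [IsAlgClosed Ω]

/-- Post-composition with an injective algebra hom is injective on points. -/
theorem comp_injective {T T' : Type} [CommRing T] [Algebra O T] [CommRing T'] [Algebra O T']
    (f : T →ₐ[O] T') (hf : Function.Injective f) :
    Function.Injective (fun z : B →ₐ[O] T => f.comp z) := by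
  intro z z' h
  apply AlgHom.ext
  intro b
  apply hf
  exact congrArg (fun g : B →ₐ[O] T' => g b) h

theorem fontainePAbove_of_points {p : ℕ} (hp : p.Prime) (hpO : (p : O) ∈ maximalIdeal O)
    (htors : ∀ y : WithConv (B →ₐ[O] Ω), y ^ p = 1)
    (j : L →ₐ[K] Ω) (hcoord : ∀ (y : B →ₐ[O] Ω) (b : B), y b ∈ j.range)
    (hgen : j.fieldRange ≤
      IntermediateField.adjoin K {ω : Ω | ∃ (y : B →ₐ[O] Ω) (b : B), ω = y b}) :
    FontainePAbove O K L (p : O) p (p - 1) := by
  classical
  intro a b hb hab E _ _ _ _ _ J hJ ⟨η⟩
  -- instances on the rings of integers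
  have : IsLocalRing (integralClosure O L) := intRing_isLocalRing O K L
  have : IsDiscreteValuationRing (integralClosure O L) := intRing_isDiscreteValuationRing O K L
  have : IsLocalRing (integralClosure O E) := intRing_isLocalRing O K E
  have : IsDiscreteValuationRing (integralClosure O E) := intRing_isDiscreteValuationRing O K E
  have : IsAdicComplete (maximalIdeal (integralClosure O E)) (integralClosure O E) :=
    intRing_isAdicComplete O K E
  have : IsLocalHom (algebraMap O (integralClosure O E)) := intRing_isLocalHom O K E
  have : CharZero L := charZero_of_injective_algebraMap (algebraMap K L).injective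
  have : CharZero E := charZero_of_injective_algebraMap (algebraMap K E).injective
  have hpT : ((p : ℕ) : integralClosure O L) ≠ 0 := by
    intro h
    have := congrArg (algebraMap (integralClosure O L) L) h
    rw [map_natCast, map_zero] at this
    exact hp.ne_zero (Nat.cast_injective (R := L) (by simpa using this))
  have hpS : ((p : ℕ) : integralClosure O E) ≠ 0 := by
    intro h
    have := congrArg (algebraMap (integralClosure O E) E) h
    rw [map_natCast, map_zero] at this
    exact hp.ne_zero (Nat.cast_injective (R := E) (by simpa using this))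
  have hpm : ((p : ℕ) : integralClosure O E) ∈ maximalIdeal (integralClosure O E) := by
    have h1 : algebraMap O (integralClosure O E) (p : O) ∈ maximalIdeal (integralClosure O E) := by
      rw [mem_maximalIdeal, mem_nonunits_iff]
      intro hu
      exact ((mem_maximalIdeal _).mp hpO) (isUnit_of_map_unit (algebraMap O (integralClosure O E)) _ hu)
    rwa [map_natCast] at h1
  have hJ' : J ^ b ≤ Ideal.span {((p : ℕ) : integralClosure O E) ^ a} := by
    rw [map_pow, map_natCast] at hJ
    exact hJ
  obtain ⟨Φ, hΦ⟩ := PmCore.exists_injective_lift (B := B) (T := integralClosure O L)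
    (S := integralClosure O E) hp hpT hpS hpm J hb hab hJ' η
  -- the embedding `L → Ω` over `O`
  set jO : L →ₐ[O] Ω := j.restrictScalars O with hjO
  have hjOinj : Function.Injective jO := j.injective
  set jT : integralClosure O L →ₐ[O] Ω := jO.comp (integralClosure O L).val with hjT
  have hjTinj : Function.Injective jT := hjOinj.comp Subtype.val_injective
  -- points of `B` in `Ω` come from points in `O_L`
  have hfactor : ∀ y : B →ₐ[O] Ω, ∃ yT : B →ₐ[O] integralClosure O L, jT.comp yT = y := by
    intro y
    have hy : ∀ b : B, y b ∈ jO.range := by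
      intro b
      obtain ⟨ℓ, hℓ⟩ := hcoord y b
      exact ⟨ℓ, hℓ⟩
    set yL : B →ₐ[O] L :=
      (AlgEquiv.ofInjective jO hjOinj).symm.toAlgHom.comp (y.codRestrict jO.range hy) with hyL
    have hyL' : ∀ b, jO (yL b) = y b := by
      intro b
      have : (AlgEquiv.ofInjective jO hjOinj) (yL b) = y.codRestrict jO.range hy b := by
        rw [hyL]
        simp
      have h2 := congrArg (fun t : jO.range => (t : Ω)) this
      simpa using h2
    have hint : ∀ b, yL b ∈ integralClosure O L := by
      intro b
      have : IsIntegral O b := Algebra.IsIntegral.isIntegral b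
      exact this.map yL
    refine ⟨yL.codRestrict (integralClosure O L) hint, ?_⟩
    apply AlgHom.ext
    intro b
    exact hyL' b
  choose toT htoT using hfactor
  have htoTp : ∀ y : B →ₐ[O] Ω, (toConv (toT y) : WithConv (B →ₐ[O] integralClosure O L)) ^ p = 1 := by
    intro y
    have h1 := PmCore.comp_conv_pow (B := B) jT (toConv (toT y)) p
    have h2 : (toConv (jT.comp (toConv (toT y) : WithConv (B →ₐ[O] integralClosure O L)).ofConv) :
        WithConv (B →ₐ[O] Ω)) = toConv y := by
      rw [WithConv.ofConv_toConv, htoT]
    rw [h2, htors, ← PmCore.comp_conv_one (B := B) jT] at h1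
    have h3 := WithConv.toConv_injective h1
    have h4 := comp_injective O B jT hjTinj h3
    exact WithConv.ofConv_injective h4
  -- an embedding `E → Ω`
  have : Algebra.IsAlgebraic K E := Algebra.IsAlgebraic.of_finite K E
  set ι : E →ₐ[K] Ω := IsAlgClosed.lift with hι
  set ιS : integralClosure O E →ₐ[O] Ω := (ι.restrictScalars O).comp (integralClosure O E).val
    with hιS
  have hιSinj : Function.Injective ιS := ι.injective.comp Subtype.val_injective
  -- the self-map of the finite set of points
  set F : (B →ₐ[O] Ω) → (B →ₐ[O] Ω) := fun y => ιS.comp (Φ ⟨toConv (toT y), htoTp y⟩) with hF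
  have hFinj : Function.Injective F := by
    intro y y' h
    have h1 := comp_injective O B ιS hιSinj h
    have h2 := hΦ h1
    have h3 : toT y = toT y' := by
      have := congrArg Subtype.val h2
      exact WithConv.toConv_injective this
    rw [← htoT y, ← htoT y', h3]
  have hFsurj : Function.Surjective F := Finite.injective_iff_surjective.mp hFinj
  -- every coordinate lies in the image of `E`
  have hcoordE : ∀ (y : B →ₐ[O] Ω) (b : B), y b ∈ ι.fieldRange := by
    intro y b
    obtain ⟨y₀, rfl⟩ := hFsurj y
    exact ⟨((Φ ⟨toConv (toT y₀), htoTp y₀⟩) b : E), rfl⟩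
  have hle : j.fieldRange ≤ ι.fieldRange := by
    refine hgen.trans ?_
    rw [IntermediateField.adjoin_le_iff]
    rintro ω ⟨y, b, rfl⟩
    exact hcoordE y b
  have hmem : ∀ ℓ : L, j ℓ ∈ ι.range := by
    intro ℓ
    have : j ℓ ∈ ι.fieldRange := hle ⟨ℓ, rfl⟩
    exact this
  exact ⟨(AlgEquiv.ofInjectiveField ι).symm.toAlgHom.comp (j.codRestrict ι.range hmem)⟩

end Fermat.Agent.TW.Font.Pm
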