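import Mathlib

/-!
# S56 free prep, block LOC-flat: the convolution rings `R_S = WithConv (C →ₗ[A] S)`

`A` a commutative ring, `C` an `A`-coalgebra (cocommutative when commutativity is needed),
`S` a commutative `A`-algebra.  We set up:

* `pullback h : R_S(C) →+* R_S(C')` along a coalgebra hom `h : C' →ₗc[A] C`;
* `postcomp φ : R_S(C) →+* R_{S'}(C)` along an algebra hom `φ : S →ₐ[A] S'`;
* `valIdeal 𝔞 : Ideal R_S` : the linear maps with values in the ideal `𝔞 ⊆ S`;
* division by a regular scalar, regularity of scalars, adic completeness of `R_S`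
  with respect to a principal ideal generated by a regular scalar.

Mathlib only; branch-only work.
-/

set_option autoImplicit false

namespace Fermat.Agent.TW.Font.ConvRing

open Coalgebra WithConv TensorProduct

variable {A : Type*} [CommRing A]
variable {C : Type*} [AddCommGroup C] [Module A C] [Coalgebra A C]
variable {C' : Type*} [AddCommGroup C'] [Module A C'] [Coalgebra A C']
variable {S : Type*} [CommRing S] [Algebra A S]
variable {S' : Type*} [CommRing S'] [Algebra A S']

/-- Pull-back of linear maps along a coalgebra hom, as a ring hom of convolution rings. -/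
noncomputable def pullback (h : C' →ₗc[A] C) :
    WithConv (C →ₗ[A] S) →+* WithConv (C' →ₗ[A] S) where
  toFun f := toConv (f.ofConv ∘ₗ h.toLinearMap)
  map_one' := by
    apply WithConv.ext
    ext c
    simp [LinearMap.convOne_def]
  map_mul' f g := by
    apply WithConv.ext
    exact LinearMap.convMul_comp_coalgHom_distrib f g h
  map_zero' := by
    apply WithConv.ext
    ext c
    simp
  map_add' f g := by
    apply WithConv.ext
    ext c
    simp

@[simp] theorem pullback_apply (h : C' →ₗc[A] C) (f : WithConv (C →ₗ[A] S)) (c : C') :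
    (pullback h f) c = f (h c) := rfl

/-- Post-composition with an algebra hom, as a ring hom of convolution rings. -/
noncomputable def postcomp (φ : S →ₐ[A] S') :
    WithConv (C →ₗ[A] S) →+* WithConv (C →ₗ[A] S') where
  toFun f := toConv (φ.toLinearMap ∘ₗ f.ofConv)
  map_one' := by
    apply WithConv.ext
    ext c
    simp [LinearMap.convOne_def]
  map_mul' f g := by
    apply WithConv.ext
    exact LinearMap.algHom_comp_convMul_distrib φ f g
  map_zero' := by
    apply WithConv.ext
    ext c
    simp
  map_add' f g := by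
    apply WithConv.ext
    ext c
    simp

@[simp] theorem postcomp_apply (φ : S →ₐ[A] S') (f : WithConv (C →ₗ[A] S)) (c : C) :
    (postcomp φ f) c = φ (f c) := rfl

theorem postcomp_pullback (φ : S →ₐ[A] S') (h : C' →ₗc[A] C) (f : WithConv (C →ₗ[A] S)) :
    postcomp φ (pullback h f) = pullback h (postcomp φ f) := rfl

/-- Scalars: `algebraMap S R_S s * f = s • f` pointwise. -/
theorem algebraMap_mul_apply (s : S) (f : WithConv (C →ₗ[A] S)) (c : C) :
    (algebraMap S (WithConv (C →ₗ[A] S)) s * f) c = s * f c := by
  rw [← Algebra.smul_def]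
  rfl

theorem pullback_algebraMap (h : C' →ₗc[A] C) (s : S) :
    pullback h (algebraMap S (WithConv (C →ₗ[A] S)) s) =
      algebraMap S (WithConv (C' →ₗ[A] S)) s := by
  apply WithConv.ext
  ext c
  simp [LinearMap.convAlgebraMap_apply]

/-- The linear maps with values in an ideal `𝔞` of `S` form an ideal of the convolution ring. -/
noncomputable def valIdeal (𝔞 : Ideal S) : Ideal (WithConv (C →ₗ[A] S)) where
  carrier := {f | ∀ c, f c ∈ 𝔞}
  add_mem' {f g} hf hg c := 𝔞.add_mem (hf c) (hg c)
  zero_mem' c := 𝔞.zero_mem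
  smul_mem' g f hf c := by
    change (g * f) c ∈ 𝔞
    rw [(ℛ A c).convMul_apply]
    exact 𝔞.sum_mem fun i _ => 𝔞.mul_mem_left _ (hf _)

theorem mem_valIdeal {𝔞 : Ideal S} {f : WithConv (C →ₗ[A] S)} :
    f ∈ valIdeal (C := C) 𝔞 ↔ ∀ c, f c ∈ 𝔞 := Iff.rfl

theorem valIdeal_mono {𝔞 𝔟 : Ideal S} (h : 𝔞 ≤ 𝔟) :
    valIdeal (A := A) (C := C) 𝔞 ≤ valIdeal 𝔟 := fun _ hf c => h (hf c)

theorem valIdeal_le_comap_pullback (h : C' →ₗc[A] C) (𝔞 : Ideal S) :
    valIdeal (A := A) (C := C) 𝔞 ≤ (valIdeal (A := A) (C := C') 𝔞).comap (pullback h) :=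
  fun _ hf c => hf (h c)

theorem postcomp_eq_postcomp_iff (φ : S →ₐ[A] S') (f g : WithConv (C →ₗ[A] S)) :
    postcomp φ f = postcomp φ g ↔ f - g ∈ valIdeal (A := A) (C := C) (RingHom.ker φ) := by
  constructor
  · intro h c
    have := congrArg (fun F : WithConv (C →ₗ[A] S') => F c) h
    simp only [postcomp_apply] at this
    change f c - g c ∈ RingHom.ker φ
    rw [RingHom.mem_ker, map_sub, this, sub_self]
  · intro h
    apply WithConv.ext
    ext c
    have := h c
    change f c - g c ∈ RingHom.ker φ at this
    rw [RingHom.mem_ker, map_sub, sub_eq_zero] at this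
    exact this

/-! ### Division by a regular scalar -/

/-- If `s₀` is a non-zero-divisor of `S` and `f` has values in `s₀ S` then `f = s₀ • g`. -/
theorem exists_eq_algebraMap_mul {s₀ : S} (hs : IsSMulRegular S s₀) (f : WithConv (C →ₗ[A] S))
    (hf : f ∈ valIdeal (A := A) (C := C) (Ideal.span {s₀})) :
    ∃ g : WithConv (C →ₗ[A] S), f = algebraMap S (WithConv (C →ₗ[A] S)) s₀ * g := by
  have hdiv : ∀ c, ∃ t : S, f c = s₀ * t := by
    intro c
    obtain ⟨t, ht⟩ := Ideal.mem_span_singleton'.mp (hf c)
    exact ⟨t, by rw [← ht, mul_comm]⟩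
  choose t ht using hdiv
  have hinj : ∀ x y : S, s₀ * x = s₀ * y → x = y := fun x y h => hs (by simpa [smul_eq_mul] using h)
  refine ⟨toConv
    { toFun := t
      map_add' := fun c c' => hinj _ _ (by
        rw [mul_add, ← ht, ← ht, ← ht]
        exact map_add f.ofConv c c')
      map_smul' := fun a c => hinj _ _ (by
        rw [RingHom.id_apply, mul_smul_comm, ← ht, ← ht]
        exact map_smul f.ofConv a c) }, ?_⟩
  apply WithConv.ext
  ext c
  change f c = (algebraMap S (WithConv (C →ₗ[A] S)) s₀ * _) c
  rw [algebraMap_mul_apply]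
  exact ht c

theorem algebraMap_mul_mem_valIdeal (s₀ : S) (g : WithConv (C →ₗ[A] S)) :
    algebraMap S (WithConv (C →ₗ[A] S)) s₀ * g ∈ valIdeal (A := A) (C := C) (Ideal.span {s₀}) := by
  intro c
  rw [algebraMap_mul_apply]
  exact Ideal.mul_mem_right _ _ (Ideal.mem_span_singleton_self s₀)

/-- For a regular scalar, `valIdeal (s₀)` is the principal ideal generated by `s₀`. -/
theorem valIdeal_span_singleton {s₀ : S} (hs : IsSMulRegular S s₀) :
    valIdeal (A := A) (C := C) (Ideal.span {s₀}) =
      Ideal.span {algebraMap S (WithConv (C →ₗ[A] S)) s₀} := by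
  apply le_antisymm
  · intro f hf
    obtain ⟨g, rfl⟩ := exists_eq_algebraMap_mul hs f hf
    exact Ideal.mem_span_singleton'.mpr ⟨g, (Algebra.commutes s₀ g).symm⟩
  · rw [Ideal.span_singleton_le_iff_mem]
    have := algebraMap_mul_mem_valIdeal (A := A) (C := C) s₀ 1
    rwa [mul_one] at this

/-- A regular scalar stays regular in the convolution ring. -/
theorem isSMulRegular_algebraMap {s₀ : S} (hs : IsSMulRegular S s₀) :
    IsSMulRegular (WithConv (C →ₗ[A] S)) (algebraMap S (WithConv (C →ₗ[A] S)) s₀) := by
  intro f g hfg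
  apply WithConv.ext
  ext c
  have := congrArg (fun F : WithConv (C →ₗ[A] S) => F c) hfg
  simp only [smul_eq_mul, algebraMap_mul_apply] at this
  exact hs (by simpa [smul_eq_mul] using this)

/-! ### Adic completeness -/

section Complete

variable [IsCocomm A C]

theorem mem_span_pow_smul_top_iff {s₀ : S} (hs : IsSMulRegular S s₀) (n : ℕ)
    (f : WithConv (C →ₗ[A] S)) :
    f ∈ ((Ideal.span {algebraMap S (WithConv (C →ₗ[A] S)) s₀}) ^ n •
        (⊤ : Submodule (WithConv (C →ₗ[A] S)) (WithConv (C →ₗ[A] S)))) ↔
      ∀ c, f c ∈ ((Ideal.span {s₀}) ^ n • (⊤ : Submodule S S)) := by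
  rw [smul_eq_mul, Ideal.mul_top, Ideal.span_singleton_pow, ← map_pow,
    ← valIdeal_span_singleton (hs.pow n)]
  simp only [smul_eq_mul, Ideal.mul_top, Ideal.span_singleton_pow]
  exact Iff.rfl

theorem isAdicComplete {s₀ : S} (hs : IsSMulRegular S s₀) [IsAdicComplete (Ideal.span {s₀}) S] :
    IsAdicComplete (Ideal.span {algebraMap S (WithConv (C →ₗ[A] S)) s₀})
      (WithConv (C →ₗ[A] S)) := by
  have : IsHausdorff (Ideal.span {algebraMap S (WithConv (C →ₗ[A] S)) s₀})
      (WithConv (C →ₗ[A] S)) := by
    constructor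
    intro f hf
    apply WithConv.ext
    ext c
    apply IsHausdorff.haus (I := Ideal.span {s₀}) (M := S) inferInstance
    intro n
    have h1 := hf n
    rw [SModEq.sub_mem, sub_zero] at h1 ⊢
    exact (mem_span_pow_smul_top_iff hs n f).mp h1 c
  have : IsPrecomplete (Ideal.span {algebraMap S (WithConv (C →ₗ[A] S)) s₀})
      (WithConv (C →ₗ[A] S)) := by
    constructor
    intro F hF
    have hcau : ∀ c : C, ∃ L : S, ∀ n, F n c ≡ L [SMOD ((Ideal.span {s₀}) ^ n •
        (⊤ : Submodule S S))] := by
      intro c
      apply IsPrecomplete.prec (I := Ideal.span {s₀}) (M := S) inferInstance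
      intro m n hmn
      have h1 := hF hmn
      rw [SModEq.sub_mem] at h1 ⊢
      exact (mem_span_pow_smul_top_iff hs m _).mp h1 c
    choose L hL using hcau
    have hsep : ∀ x : S, (∀ n, x ∈ ((Ideal.span {s₀}) ^ n • (⊤ : Submodule S S))) → x = 0 := by
      intro x hx
      apply IsHausdorff.haus (I := Ideal.span {s₀}) (M := S) inferInstance
      intro n
      rw [SModEq.sub_mem, sub_zero]
      exact hx n
    have hLmem : ∀ n c, F n c - L c ∈ ((Ideal.span {s₀}) ^ n • (⊤ : Submodule S S)) :=
      fun n c => SModEq.sub_mem.mp (hL c n)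
    refine ⟨toConv
      { toFun := L
        map_add' := fun c c' => by
          rw [← sub_eq_zero]
          apply hsep
          intro n
          have e : L (c + c') - (L c + L c') =
              -(F n (c + c') - L (c + c')) + (F n c - L c) + (F n c' - L c') := by
            have : F n (c + c') = F n c + F n c' := map_add (F n).ofConv c c'
            rw [this]; ring
          rw [e]
          exact Submodule.add_mem _ (Submodule.add_mem _ (Submodule.neg_mem _ (hLmem n _))
            (hLmem n _)) (hLmem n _)
        map_smul' := fun a c => by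
          rw [RingHom.id_apply, ← sub_eq_zero]
          apply hsep
          intro n
          have e : L (a • c) - a • L c = -(F n (a • c) - L (a • c)) + a • (F n c - L c) := by
            have : F n (a • c) = a • F n c := map_smul (F n).ofConv a c
            rw [this, smul_sub]; ring
          rw [e]
          refine Submodule.add_mem _ (Submodule.neg_mem _ (hLmem n _)) ?_
          rw [← algebraMap_smul S a]
          exact Submodule.smul_mem _ _ (hLmem n _) }, ?_⟩
    intro n
    rw [SModEq.sub_mem, mem_span_pow_smul_top_iff hs n]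
    intro c
    exact hLmem n c
  exact ⟨⟩

end Complete

end Fermat.Agent.TW.Font.ConvRing
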