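import Mathlib

/-!
# S56 free prep, block LOC-flat, F3-L3 (abstract form): lifting a `p`-torsion point

Pure ring theory.  `R`, `R'` commutative rings (in the application the convolution rings
`WithConv (B →ₗ[A] S)` and `WithConv (B ⊗[A] B →ₗ[A] S)` of a cocommutative bialgebra `B`),
three ring homs `m p₁ p₂ : R →+* R'` (pull-backs along multiplication and the two projections),
ideals `J ⊆ R`, `J' ⊆ R'` (functions with values in `I = ϖ^s S`), `pJ`, `pJ'` (values in `p I`).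

Hypotheses:
* (PR-surj) in `R`: every unit `≡ 1 mod pJ` is the `p`-th power of a unit `≡ 1 mod J`;
* (PR-inj) in `R'`: a unit `≡ 1 mod J'` killed by `p` is `1`.

Conclusion: a unit `x₀` of `R` which is `p`-torsion modulo `pJ` and multiplicative modulo `pJ'`
can be corrected modulo `J` to a unit `y` with `y ^ p = 1` which is exactly multiplicative:
`m y = p₁ y * p₂ y`.

No exponential, no logarithm, no cocycle homotopy.  Mathlib only; branch-only work.
-/

set_option autoImplicit false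

namespace Fermat.Agent.TW.Font.LiftAbstract

variable {R R' : Type*} [CommRing R] [CommRing R']

/-- **Abstract lifting step.** -/
theorem exists_lift {p : ℕ} (J pJ : Ideal R) (J' pJ' : Ideal R') (m p₁ p₂ : R →+* R')
    (hmJ : J ≤ J'.comap m) (h1J : J ≤ J'.comap p₁) (h2J : J ≤ J'.comap p₂)
    (hpJ' : pJ' ≤ J')
    (hsurj : ∀ u : Rˣ, (u : R) - 1 ∈ pJ → ∃ w : Rˣ, (w : R) - 1 ∈ J ∧ w ^ p = u)
    (hinj : ∀ D : R'ˣ, (D : R') - 1 ∈ J' → D ^ p = 1 → D = 1)
    (x₀ : Rˣ) (hx₀ : ((x₀ ^ p : Rˣ) : R) - 1 ∈ pJ)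
    (hd : m x₀ - p₁ x₀ * p₂ x₀ ∈ pJ') :
    ∃ y : Rˣ, (y : R) - x₀ ∈ J ∧ y ^ p = 1 ∧ m y = p₁ y * p₂ y := by
  obtain ⟨w, hwJ, hwp⟩ := hsurj (x₀ ^ p) hx₀
  -- `w⁻¹ ≡ 1 mod J`
  have hwinv : ((w⁻¹ : Rˣ) : R) - 1 ∈ J := by
    have : ((w⁻¹ : Rˣ) : R) - 1 = -((w⁻¹ : Rˣ) : R) * ((w : R) - 1) := by
      have h1 : ((w⁻¹ : Rˣ) : R) * (w : R) = 1 := by simp
      linear_combination h1
    rw [this]
    exact J.mul_mem_left _ hwJ
  refine ⟨x₀ * w⁻¹, ?_, ?_, ?_⟩
  · have : ((x₀ * w⁻¹ : Rˣ) : R) - x₀ = (x₀ : R) * (((w⁻¹ : Rˣ) : R) - 1) := by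
      push_cast; ring
    rw [this]
    exact J.mul_mem_left _ hwinv
  · rw [mul_pow, inv_pow, hwp, mul_inv_cancel]
  · set y : Rˣ := x₀ * w⁻¹ with hy
    have hyp : y ^ p = 1 := by rw [hy, mul_pow, inv_pow, hwp, mul_inv_cancel]
    -- the defect unit
    set M : R'ˣ := Units.map (m : R →* R') y with hM
    set P : R'ˣ := Units.map (p₁ : R →* R') y * Units.map (p₂ : R →* R') y with hP
    have hMval : (M : R') = m (y : R) := rfl
    have hPval : (P : R') = p₁ (y : R) * p₂ (y : R) := rfl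
    have hDp : (M * P⁻¹) ^ p = 1 := by
      rw [hM, hP, mul_pow, inv_pow, mul_pow, ← map_pow, ← map_pow, ← map_pow, hyp]
      simp
    -- `D ≡ 1 mod J'`
    have hmod : ∀ f : R →+* R', J ≤ J'.comap f →
        Ideal.Quotient.mk J' (f y) = Ideal.Quotient.mk J' (f x₀) := by
      intro f hf
      rw [Ideal.Quotient.eq]
      have : f (y : R) - f (x₀ : R) = f ((y : R) - x₀) := by rw [map_sub]
      rw [this]
      apply hf
      have : ((y : Rˣ) : R) - x₀ = (x₀ : R) * (((w⁻¹ : Rˣ) : R) - 1) := by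
        rw [hy]; push_cast; ring
      rw [this]
      exact J.mul_mem_left _ hwinv
    have hdefect : m (y : R) - p₁ (y : R) * p₂ (y : R) ∈ J' := by
      rw [← Ideal.Quotient.eq, map_mul, hmod m hmJ, hmod p₁ h1J, hmod p₂ h2J, ← map_mul,
        Ideal.Quotient.eq]
      exact hpJ' hd
    have hD1 : ((M * P⁻¹ : R'ˣ) : R') - 1 ∈ J' := by
      have : ((M * P⁻¹ : R'ˣ) : R') - 1 =
          (m (y : R) - p₁ (y : R) * p₂ (y : R)) * ((P⁻¹ : R'ˣ) : R') := by
        have h1 : (P : R') * ((P⁻¹ : R'ˣ) : R') = 1 := Units.mul_inv P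
        rw [hPval] at h1
        rw [Units.val_mul, hMval]
        linear_combination h1
      rw [this]
      exact J'.mul_mem_right _ hdefect
    have hDone := hinj (M * P⁻¹) hD1 hDp
    have hMP : M = P := mul_inv_eq_one.mp hDone
    have := congrArg (fun u : R'ˣ => (u : R')) hMP
    simpa [hMval, hPval] using this

end Fermat.Agent.TW.Font.LiftAbstract
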