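import Fermat.Agent.TW.Font.ConvRing

/-!
# S56 free prep, block LOC-flat: points of a bialgebra inside the convolution ring

`B` a commutative `A`-bialgebra, `S` a commutative `A`-algebra, `R_S = WithConv (B →ₗ[A] S)`,
`R²_S = WithConv (B ⊗[A] B →ₗ[A] S)`.  The three pull-backs `mStar`, `p1Star`, `p2Star :
R_S →+* R²_S` (along multiplication and the two "projections") and the criterion
`f` multiplicative `↔ mStar f = p1Star f * p2Star f`.

Mathlib only; branch-only work.
-/

set_option autoImplicit false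

namespace Fermat.Agent.TW.Font.ConvRing

open Coalgebra WithConv TensorProduct

variable {A : Type*} [CommRing A] {B : Type*} [CommRing B] [Bialgebra A B]
variable {S : Type*} [CommRing S] [Algebra A S]

/-- First projection `B ⊗ B → B`, `b ⊗ b' ↦ ε(b') b`, as a coalgebra hom. -/
noncomputable def proj1 : B ⊗[A] B →ₗc[A] B :=
  (Coalgebra.TensorProduct.rid A A B).toCoalgHom.comp
    (Coalgebra.TensorProduct.map (CoalgHom.id A B) (counitCoalgHom A B))

/-- Second projection `B ⊗ B → B`, `b ⊗ b' ↦ ε(b) b'`, as a coalgebra hom. -/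
noncomputable def proj2 : B ⊗[A] B →ₗc[A] B :=
  (Coalgebra.TensorProduct.lid A B).toCoalgHom.comp
    (Coalgebra.TensorProduct.map (counitCoalgHom A B) (CoalgHom.id A B))

@[simp] theorem proj1_tmul (b b' : B) : proj1 (A := A) (b ⊗ₜ[A] b') = counit (R := A) b' • b := by
  simp [proj1]

@[simp] theorem proj2_tmul (b b' : B) : proj2 (A := A) (b ⊗ₜ[A] b') = counit (R := A) b • b' := by
  simp [proj2]

/-- Pull-back along the multiplication `B ⊗ B → B`. -/
noncomputable def mStar : WithConv (B →ₗ[A] S) →+* WithConv (B ⊗[A] B →ₗ[A] S) :=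
  pullback (Bialgebra.mulCoalgHom A B)

/-- Pull-back along the first projection. -/
noncomputable def p1Star : WithConv (B →ₗ[A] S) →+* WithConv (B ⊗[A] B →ₗ[A] S) :=
  pullback proj1

/-- Pull-back along the second projection. -/
noncomputable def p2Star : WithConv (B →ₗ[A] S) →+* WithConv (B ⊗[A] B →ₗ[A] S) :=
  pullback proj2

@[simp] theorem mStar_tmul (f : WithConv (B →ₗ[A] S)) (b b' : B) :
    mStar f (b ⊗ₜ[A] b') = f (b * b') := by
  simp [mStar]

@[simp] theorem p1Star_tmul (f : WithConv (B →ₗ[A] S)) (b b' : B) :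
    p1Star f (b ⊗ₜ[A] b') = counit (R := A) b' • f b := by
  simp [p1Star]

@[simp] theorem p2Star_tmul (f : WithConv (B →ₗ[A] S)) (b b' : B) :
    p2Star f (b ⊗ₜ[A] b') = counit (R := A) b • f b' := by
  simp [p2Star]

theorem p1Star_mul_p2Star_tmul (f g : WithConv (B →ₗ[A] S)) (b b' : B) :
    (p1Star f * p2Star g) (b ⊗ₜ[A] b') = f b * g b' := by
  rw [((ℛ A b).tmul (ℛ A b')).convMul_apply]
  simp only [Coalgebra.Repr.tmul_index, Coalgebra.Repr.tmul_left, Coalgebra.Repr.tmul_right,
    p1Star_tmul, p2Star_tmul]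
  rw [Finset.sum_product]
  have h1 : ∀ i j, (counit (R := A) ((ℛ A b').left j) • f ((ℛ A b).left i)) *
      (counit (R := A) ((ℛ A b).right i) • g ((ℛ A b').right j)) =
      f (counit (R := A) ((ℛ A b).right i) • (ℛ A b).left i) *
        g (counit (R := A) ((ℛ A b').left j) • (ℛ A b').right j) := by
    intro i j
    rw [map_smul f.ofConv, map_smul g.ofConv]
    simp only [Algebra.smul_def]
    ring
  simp_rw [h1, ← Finset.mul_sum, ← Finset.sum_mul]
  rw [← map_sum g.ofConv, ← map_sum f.ofConv, Coalgebra.sum_counit_smul]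
  congr 2
  have h2 := congrArg (TensorProduct.lift ((LinearMap.lsmul A B).flip))
    (Coalgebra.sum_tmul_counit_eq (ℛ A b))
  rw [map_sum] at h2
  simp only [TensorProduct.lift.tmul, LinearMap.flip_apply, LinearMap.lsmul_apply, one_smul] at h2
  exact h2

theorem mul_iff (f : WithConv (B →ₗ[A] S)) :
    mStar f = p1Star f * p2Star f ↔ ∀ b b' : B, f (b * b') = f b * f b' := by
  constructor
  · intro h b b'
    have := congrArg (fun F : WithConv (B ⊗[A] B →ₗ[A] S) => F (b ⊗ₜ[A] b')) h
    simpa only [mStar_tmul, p1Star_mul_p2Star_tmul] using this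
  · intro h
    apply WithConv.ext
    apply TensorProduct.ext'
    intro b b'
    change mStar f (b ⊗ₜ[A] b') = (p1Star f * p2Star f) (b ⊗ₜ[A] b')
    rw [mStar_tmul, p1Star_mul_p2Star_tmul, h]

end Fermat.Agent.TW.Font.ConvRing
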