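import Fermat.Agent.TW.Font.LiftAbstract
import Fermat.Agent.TW.Font.PointCriterion

/-!
# S56 free prep, block LOC-flat, F3-L3 (concrete form): lifting `p`-torsion points

`B` a commutative cocommutative Hopf algebra over `A`, projective as an `A`-module; `S` a
commutative `A`-algebra, `a₀ : S`.  A point `ȳ : B →ₐ[A] S ⧸ (p a₀)` with `ȳ ^ p = 1` (convolution)
has a lift `y : B →ₐ[A] S` with `y ^ p = 1` and `y ≡ ȳ` modulo `a₀`, provided

* (PR-surj) in `R_S = WithConv (B →ₗ[A] S)` and (PR-inj) in `R²_S = WithConv (B ⊗ B →ₗ[A] S)`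
  (unit/ideal form, as in `LiftAbstract`);
* functions with values in `(p a₀)` lie in the Jacobson radical of `R_S`, and `a₀ ∈ rad S`.

Mathlib only; branch-only work.
-/

set_option autoImplicit false
set_option linter.unusedSectionVars false

namespace Fermat.Agent.TW.Font.Lifting

open Coalgebra WithConv TensorProduct Fermat.Agent.TW.Font.ConvRing

variable {A : Type*} [CommRing A] {B : Type*} [CommRing B] [HopfAlgebra A B] [IsCocomm A B]
variable {S : Type*} [CommRing S] [Algebra A S]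

/-- The linear map underlying a point, in the convolution ring. -/
noncomputable def lin {T : Type*} [CommRing T] [Algebra A T] (x : B →ₐ[A] T) :
    WithConv (B →ₗ[A] T) := toConv x.toLinearMap

theorem lin_apply {T : Type*} [CommRing T] [Algebra A T] (x : B →ₐ[A] T) (b : B) :
    lin x b = x b := rfl

/-- A point is a unit of the convolution ring: its inverse is `x ∘ antipode`. -/
theorem lin_mul_lin_comp_antipode {T : Type*} [CommRing T] [Algebra A T] (x : B →ₐ[A] T) :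
    lin x * toConv (x.toLinearMap ∘ₗ HopfAlgebra.antipode A (A := B)) = 1 := by
  have h := congrArg (postcomp (C := B) x) (LinearMap.id_mul_antipode (R := A) (C := B))
  rw [map_mul, map_one] at h
  exact h

theorem exists_lift_point {p : ℕ} (𝔭 𝔞 : Ideal S) (h𝔭𝔞 : 𝔭 ≤ 𝔞)
    (hsurj : ∀ u : (WithConv (B →ₗ[A] S))ˣ,
      (u : WithConv (B →ₗ[A] S)) - 1 ∈ valIdeal (A := A) (C := B) 𝔭 →
      ∃ w : (WithConv (B →ₗ[A] S))ˣ,
        (w : WithConv (B →ₗ[A] S)) - 1 ∈ valIdeal (A := A) (C := B) 𝔞 ∧ w ^ p = u)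
    (hinj : ∀ D : (WithConv (B ⊗[A] B →ₗ[A] S))ˣ,
      (D : WithConv (B ⊗[A] B →ₗ[A] S)) - 1 ∈
        valIdeal (A := A) (C := B ⊗[A] B) 𝔞 → D ^ p = 1 → D = 1)
    (hrad : valIdeal (A := A) (C := B) 𝔭 ≤
      Ideal.jacobson (⊥ : Ideal (WithConv (B →ₗ[A] S))))
    (hradS : 𝔞 ≤ Ideal.jacobson (⊥ : Ideal S))
    [Module.Projective A B]
    (ybar : B →ₐ[A] S ⧸ 𝔭)
    (hyp : (toConv ybar : WithConv (B →ₐ[A] S ⧸ 𝔭)) ^ p = 1) :
    ∃ y : B →ₐ[A] S, (toConv y : WithConv (B →ₐ[A] S)) ^ p = 1 ∧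
      ∀ (b : B) (s : S), Ideal.Quotient.mk 𝔭 s = ybar b → y b - s ∈ 𝔞 := by
  classical
  set φ : S →ₐ[A] S ⧸ 𝔭 := Ideal.Quotient.mkₐ A 𝔭 with hφ
  have hφsurj : Function.Surjective φ := Ideal.Quotient.mkₐ_surjective A 𝔭
  have hkerφ : RingHom.ker φ = 𝔭 := by
    rw [hφ]; exact Ideal.Quotient.mkₐ_ker A 𝔭
  -- linear lifts of `ȳ` and of its inverse
  obtain ⟨x0, hx0⟩ := Module.projective_lifting_property φ.toLinearMap ybar.toLinearMap hφsurj
  obtain ⟨x1, hx1⟩ := Module.projective_lifting_property φ.toLinearMap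
    (ybar.toLinearMap ∘ₗ HopfAlgebra.antipode A (A := B)) hφsurj
  set X0 : WithConv (B →ₗ[A] S) := toConv x0 with hX0
  set X1 : WithConv (B →ₗ[A] S) := toConv x1 with hX1
  have hpX0 : postcomp (C := B) φ X0 = lin ybar := by
    apply WithConv.ext; exact hx0
  have hpX1 : postcomp (C := B) φ X1 =
      toConv (ybar.toLinearMap ∘ₗ HopfAlgebra.antipode A (A := B)) := by
    apply WithConv.ext; exact hx1
  -- `X0` is a unit
  have hX01 : X0 * X1 - 1 ∈ valIdeal (A := A) (C := B) 𝔭 := by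
    rw [← hkerφ, ← postcomp_eq_postcomp_iff, map_mul, map_one, hpX0, hpX1,
      lin_mul_lin_comp_antipode]
  have hunit01 : IsUnit (X0 * X1) :=
    Ideal.isUnit_of_sub_one_mem_jacobson_bot _ (hrad hX01)
  have hunit0 : IsUnit X0 := isUnit_of_mul_isUnit_left hunit01
  obtain ⟨u0, hu0⟩ := hunit0
  -- `X0 ^ p ≡ 1`
  have hlinpow : (lin ybar) ^ p = 1 := by
    have := AlgHom.toLinearMap_convPow (toConv ybar) p
    rw [hyp] at this
    exact this.symm
  have hx0p : ((u0 ^ p : (WithConv (B →ₗ[A] S))ˣ) : WithConv (B →ₗ[A] S)) - 1 ∈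
      valIdeal (A := A) (C := B) 𝔭 := by
    rw [Units.val_pow_eq_pow_val, hu0, ← hkerφ, ← postcomp_eq_postcomp_iff, map_pow, map_one, hpX0,
      hlinpow]
  -- `X0` is multiplicative modulo `𝔭`
  have hd : mStar (u0 : WithConv (B →ₗ[A] S)) - p1Star (u0 : WithConv (B →ₗ[A] S)) *
      p2Star (u0 : WithConv (B →ₗ[A] S)) ∈ valIdeal (A := A) (C := B ⊗[A] B) 𝔭 := by
    rw [hu0, ← hkerφ, ← postcomp_eq_postcomp_iff, map_mul]
    have e1 : postcomp (C := B ⊗[A] B) φ (mStar X0) = mStar (postcomp (C := B) φ X0) := rfl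
    have e2 : postcomp (C := B ⊗[A] B) φ (p1Star X0) = p1Star (postcomp (C := B) φ X0) := rfl
    have e3 : postcomp (C := B ⊗[A] B) φ (p2Star X0) = p2Star (postcomp (C := B) φ X0) := rfl
    rw [e1, e2, e3, hpX0]
    exact (mul_iff (lin ybar)).mpr fun b b' => map_mul ybar b b'
  -- apply the abstract lifting step
  obtain ⟨y, hyJ, hyp1, hymul⟩ := LiftAbstract.exists_lift (p := p)
    (valIdeal (A := A) (C := B) 𝔞) (valIdeal (A := A) (C := B) 𝔭)
    (valIdeal (A := A) (C := B ⊗[A] B) 𝔞) (valIdeal (A := A) (C := B ⊗[A] B) 𝔭)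
    mStar p1Star p2Star
    (valIdeal_le_comap_pullback _ 𝔞) (valIdeal_le_comap_pullback _ 𝔞)
    (valIdeal_le_comap_pullback _ 𝔞) (valIdeal_mono h𝔭𝔞) hsurj hinj u0 hx0p hd
  -- `y` is multiplicative
  have hmul : ∀ b b' : B, (y : WithConv (B →ₗ[A] S)) (b * b') =
      (y : WithConv (B →ₗ[A] S)) b * (y : WithConv (B →ₗ[A] S)) b' :=
    (mul_iff (y : WithConv (B →ₗ[A] S))).mp hymul
  -- congruence of `y` with `ȳ`
  have hcongr : ∀ (b : B) (s : S), Ideal.Quotient.mk 𝔭 s = ybar b →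
      (y : WithConv (B →ₗ[A] S)) b - s ∈ 𝔞 := by
    intro b s hs
    have h1 : (y : WithConv (B →ₗ[A] S)) b - X0 b ∈ 𝔞 := by
      have := hyJ b
      rwa [hu0] at this
    have h2 : X0 b - s ∈ 𝔭 := by
      rw [← Ideal.Quotient.eq, hs]
      have := congrArg (fun F : WithConv (B →ₗ[A] S ⧸ 𝔭) => F b) hpX0
      exact this
    have : (y : WithConv (B →ₗ[A] S)) b - s =
        ((y : WithConv (B →ₗ[A] S)) b - X0 b) + (X0 b - s) := by ring
    rw [this]
    exact 𝔞.add_mem h1 (h𝔭𝔞 h2)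
  -- `y 1 = 1`
  have hone : (y : WithConv (B →ₗ[A] S)) 1 = 1 := by
    have h1 : (y : WithConv (B →ₗ[A] S)) 1 - 1 ∈ 𝔞 :=
      hcongr 1 1 (by rw [map_one, map_one])
    have hu : IsUnit ((y : WithConv (B →ₗ[A] S)) 1) := by
      apply Ideal.isUnit_of_sub_one_mem_jacobson_bot
      exact hradS h1
    have h2 := hmul 1 1
    rw [mul_one] at h2
    exact hu.mul_eq_left.mp h2.symm
  refine ⟨AlgHom.ofLinearMap (y : WithConv (B →ₗ[A] S)).ofConv hone hmul, ?_, ?_⟩
  · -- `y ^ p = 1` in the convolution monoid of points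
    apply WithConv.ofConv_injective
    apply AlgHom.toLinearMap_injective
    apply WithConv.toConv_injective
    have h1 := AlgHom.toLinearMap_convPow
      (toConv (AlgHom.ofLinearMap (y : WithConv (B →ₗ[A] S)).ofConv hone hmul)) p
    rw [h1]
    have h2 : (toConv (AlgHom.ofLinearMap (y : WithConv (B →ₗ[A] S)).ofConv hone hmul).toLinearMap :
        WithConv (B →ₗ[A] S)) = (y : WithConv (B →ₗ[A] S)) := rfl
    change (toConv (AlgHom.ofLinearMap (y : WithConv (B →ₗ[A] S)).ofConv hone hmul).toLinearMap :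
        WithConv (B →ₗ[A] S)) ^ p = _
    rw [h2, ← Units.val_pow_eq_pow_val, hyp1]
    rfl
  · intro b s hs
    exact hcongr b s hs

end Fermat.Agent.TW.Font.Lifting
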