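import Fermat.Agent.TW.Font.PRoot
import Fermat.Agent.TW.Font.Lifting

/-!
# S56, block LOC-flat, F3-L3 (final form): lifting `p`-torsion points over a complete base

`S` a commutative `A`-algebra, `ϖ`-adically complete for a regular `ϖ : S`; `a₀ b₀ ∈ ϖ S` with
`a₀ ^ (p - 1) = p b₀` (i.e. `v(a₀) > 1/(p-1)`) and `p a₀` regular.  `B` a commutative
cocommutative Hopf algebra over `A`, projective as a module.  Every point
`ȳ : B →ₐ[A] S ⧸ (p a₀)` with `ȳ ^ p = 1` lifts to a point `y : B →ₐ[A] S` with `y ^ p = 1` and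
`y ≡ ȳ mod a₀`.

Glue of helper17's `PRoot` (p-th roots in `1 + a R`) with `Lifting.exists_lift_point`.
-/

set_option autoImplicit false
set_option linter.unusedSectionVars false

namespace Fermat.Agent.TW.Font.LiftComplete

open Coalgebra WithConv TensorProduct Fermat.Agent.TW.Font.ConvRing Fermat.Agent.TW.Font

variable {A : Type*} [CommRing A]
variable {S : Type*} [CommRing S] [Algebra A S]

section Ring

variable {C : Type*} [AddCommGroup C] [Module A C] [Coalgebra A C] [IsCocomm A C]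

/-- (PR-surj) in the convolution ring, unit/ideal form. -/
theorem pr_surj {p : ℕ} (hp : p.Prime) (ϖ a₀ b₀ : S) (hϖ : IsSMulRegular S ϖ)
    [IsAdicComplete (Ideal.span {ϖ}) S] (ha : a₀ ∈ Ideal.span {ϖ}) (hb : b₀ ∈ Ideal.span {ϖ})
    (hab : a₀ ^ (p - 1) = (p : S) * b₀) (hreg : IsSMulRegular S ((p : S) * a₀))
    (u : (WithConv (C →ₗ[A] S))ˣ)
    (hu : (u : WithConv (C →ₗ[A] S)) - 1 ∈
      valIdeal (A := A) (C := C) (Ideal.span {(p : S) * a₀})) :
    ∃ w : (WithConv (C →ₗ[A] S))ˣ,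
      (w : WithConv (C →ₗ[A] S)) - 1 ∈ valIdeal (A := A) (C := C) (Ideal.span {a₀}) ∧
        w ^ p = u := by
  have := ConvRing.isAdicComplete (A := A) (C := C) hϖ
  set Rg := WithConv (C →ₗ[A] S)
  set am : S →+* Rg := algebraMap S Rg
  have hvI : ∀ s ∈ Ideal.span {ϖ}, am s ∈ Ideal.span {am ϖ} := by
    intro s hs
    obtain ⟨t, rfl⟩ := Ideal.mem_span_singleton'.mp hs
    rw [map_mul]
    exact Ideal.mul_mem_left _ _ (Ideal.mem_span_singleton_self _)
  obtain ⟨z, hz⟩ := exists_eq_algebraMap_mul hreg _ hu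
  have hab' : (am a₀) ^ (p - 1) = (p : Rg) * am b₀ := by
    rw [← map_pow, hab, map_mul, map_natCast]
  obtain ⟨y, hy⟩ := PRoot.exists_prime_root hp hab' (Ideal.span {am ϖ}) (hvI _ ha) (hvI _ hb) z
  have hu' : (u : Rg) = 1 + (p : Rg) * am a₀ * z := by
    have : (u : Rg) = 1 + ((u : Rg) - 1) := by ring
    rw [this, hz, map_mul, map_natCast]
  have hwu : IsUnit (1 + am a₀ * y) := by
    have h1 : IsUnit ((1 + am a₀ * y) ^ p) := by
      rw [hy, ← hu']; exact u.isUnit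
    exact (isUnit_pow_iff hp.ne_zero).mp h1
  obtain ⟨w, hw⟩ := hwu
  refine ⟨w, ?_, ?_⟩
  · rw [hw]
    have : (1 + am a₀ * y : Rg) - 1 = am a₀ * y := by ring
    rw [this]
    exact algebraMap_mul_mem_valIdeal a₀ y
  · apply Units.ext
    rw [Units.val_pow_eq_pow_val, hw, hy, hu']

/-- (PR-inj) in the convolution ring, unit/ideal form. -/
theorem pr_inj {p : ℕ} (hp : p.Prime) (ϖ a₀ b₀ : S) (hϖ : IsSMulRegular S ϖ)
    [IsAdicComplete (Ideal.span {ϖ}) S] (ha : a₀ ∈ Ideal.span {ϖ}) (hb : b₀ ∈ Ideal.span {ϖ})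
    (hab : a₀ ^ (p - 1) = (p : S) * b₀) (hreg : IsSMulRegular S ((p : S) * a₀))
    (D : (WithConv (C →ₗ[A] S))ˣ)
    (hD : (D : WithConv (C →ₗ[A] S)) - 1 ∈ valIdeal (A := A) (C := C) (Ideal.span {a₀}))
    (hDp : D ^ p = 1) : D = 1 := by
  have := ConvRing.isAdicComplete (A := A) (C := C) hϖ
  set Rg := WithConv (C →ₗ[A] S)
  set am : S →+* Rg := algebraMap S Rg
  have hvI : ∀ s ∈ Ideal.span {ϖ}, am s ∈ Ideal.jacobson (⊥ : Ideal Rg) := by
    intro s hs
    apply IsAdicComplete.le_jacobson_bot (Ideal.span {am ϖ})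
    obtain ⟨t, rfl⟩ := Ideal.mem_span_singleton'.mp hs
    rw [map_mul]
    exact Ideal.mul_mem_left _ _ (Ideal.mem_span_singleton_self _)
  have hrega : IsSMulRegular S a₀ := by
    intro x y hxy
    apply hreg
    simp only [smul_eq_mul] at hxy ⊢
    rw [mul_assoc, mul_assoc, hxy]
  obtain ⟨y, hy⟩ := exists_eq_algebraMap_mul hrega _ hD
  have hab' : (am a₀) ^ (p - 1) = (p : Rg) * am b₀ := by
    rw [← map_pow, hab, map_mul, map_natCast]
  have hregR : ∀ x : Rg, (p : Rg) * am a₀ * x = 0 → x = 0 := by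
    intro x hx
    have h1 := isSMulRegular_algebraMap (A := A) (C := C) hreg
    apply h1
    simp only [smul_eq_mul, mul_zero]
    rw [map_mul, map_natCast]
    exact hx
  have hDval : (D : Rg) = 1 + am a₀ * y := by
    have : (D : Rg) = 1 + ((D : Rg) - 1) := by ring
    rw [this, hy]
  have hDp' : (D : Rg) ^ p = 1 := by
    rw [← Units.val_pow_eq_pow_val, hDp]; rfl
  have := PRoot.eq_one_of_pow_prime_eq_one hp hab' (hvI _ ha) (hvI _ hb) hregR hDval hDp'
  exact Units.ext this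

end Ring

variable {B : Type*} [CommRing B] [HopfAlgebra A B] [IsCocomm A B]

/-- **F3-L3, final form.** -/
theorem exists_lift_point_of_complete {p : ℕ} (hp : p.Prime) (ϖ a₀ b₀ : S)
    (hϖ : IsSMulRegular S ϖ) [IsAdicComplete (Ideal.span {ϖ}) S]
    (ha : a₀ ∈ Ideal.span {ϖ}) (hb : b₀ ∈ Ideal.span {ϖ})
    (hab : a₀ ^ (p - 1) = (p : S) * b₀) (hreg : IsSMulRegular S ((p : S) * a₀))
    [Module.Projective A B]
    (ybar : B →ₐ[A] S ⧸ Ideal.span {(p : S) * a₀})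
    (hyp : (toConv ybar : WithConv (B →ₐ[A] S ⧸ Ideal.span {(p : S) * a₀})) ^ p = 1) :
    ∃ y : B →ₐ[A] S, (toConv y : WithConv (B →ₐ[A] S)) ^ p = 1 ∧
      ∀ (b : B) (s : S), Ideal.Quotient.mk (Ideal.span {(p : S) * a₀}) s = ybar b →
        y b - s ∈ Ideal.span {a₀} := by
  have := ConvRing.isAdicComplete (A := A) (C := B) hϖ
  have hpa : Ideal.span {(p : S) * a₀} ≤ Ideal.span {a₀} := by
    rw [Ideal.span_singleton_le_iff_mem]
    exact Ideal.mul_mem_left _ _ (Ideal.mem_span_singleton_self a₀)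
  have haϖ : Ideal.span {a₀} ≤ Ideal.span {ϖ} := by
    rw [Ideal.span_singleton_le_iff_mem]; exact ha
  have hs : ∀ u : (WithConv (B →ₗ[A] S))ˣ,
      (u : WithConv (B →ₗ[A] S)) - 1 ∈ valIdeal (A := A) (C := B) (Ideal.span {(p : S) * a₀}) →
      ∃ w : (WithConv (B →ₗ[A] S))ˣ,
        (w : WithConv (B →ₗ[A] S)) - 1 ∈ valIdeal (A := A) (C := B) (Ideal.span {a₀}) ∧
          w ^ p = u :=
    fun u hu => pr_surj (C := B) hp ϖ a₀ b₀ hϖ ha hb hab hreg u hu
  have hi : ∀ D : (WithConv (B ⊗[A] B →ₗ[A] S))ˣ,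
      (D : WithConv (B ⊗[A] B →ₗ[A] S)) - 1 ∈
        valIdeal (A := A) (C := B ⊗[A] B) (Ideal.span {a₀}) → D ^ p = 1 → D = 1 :=
    fun D hD hDp => pr_inj (C := B ⊗[A] B) hp ϖ a₀ b₀ hϖ ha hb hab hreg D hD hDp
  have hrad : valIdeal (A := A) (C := B) (Ideal.span {(p : S) * a₀}) ≤
      Ideal.jacobson (⊥ : Ideal (WithConv (B →ₗ[A] S))) := by
    refine (valIdeal_mono (hpa.trans haϖ)).trans ?_
    rw [valIdeal_span_singleton hϖ]
    exact IsAdicComplete.le_jacobson_bot _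
  have hradS : Ideal.span {a₀} ≤ Ideal.jacobson (⊥ : Ideal S) :=
    haϖ.trans (IsAdicComplete.le_jacobson_bot _)
  exact Lifting.exists_lift_point (p := p) (Ideal.span {(p : S) * a₀}) (Ideal.span {a₀}) hpa
    hs hi hrad hradS ybar hyp

end Fermat.Agent.TW.Font.LiftComplete
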