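import Mathlib

/-!
# S56, block LOC-flat, F3-L5: three valuation-ring lemmas

* `exists_threshold_generator` (L5c): in a valuation ring `S` (local domain) with `p ∈ 𝔪`, `p ≠ 0`,
  a principal ideal `J = (g)` with `J ^ b ⊆ (p ^ a)` and `p b < a (p - 1)` (i.e. `J ⊆ {v ≥ m}`,
  `m > p/(p-1)`) is contained in `(p a₀)` for some `a₀ ≠ 0` with `a₀ ^ (p-1) = p b₀`, `a₀ b₀ ∈ 𝔪`.
* `not_exists_eq_mk_mul` (L5b, "KER"): a ring hom `ψ : T → S ⧸ J`, `J ⊆ (p a₀)`, cannot send an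
  element `x` with `x ^ (p-1) ∣ p` into the image of `(a₀)`.
* `exists_threshold` (L5a): in a DVR `T` with `p ∈ 𝔪`, `p ≠ 0` there are `a b` with
  `a ^ (p-1) = p b`, `b ∈ 𝔪`, and every `x` not divisible by `a` satisfies `x ^ (p-1) ∣ p`.

Mathlib only; branch-only work.
-/

set_option autoImplicit false
set_option linter.unusedSectionVars false
set_option linter.overlappingInstances false

namespace Fermat.Agent.TW.Font.ValLemmas

open IsLocalRing

section L5c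

variable {S : Type*} [CommRing S] [IsDomain S] [ValuationRing S] [IsLocalRing S]

/-- If `p ^ m * u = p ^ n` with `n < m` in a domain with `p ≠ 0` then `p` is a unit. -/
theorem isUnit_of_pow_mul_eq_pow {p u : S} (hp0 : p ≠ 0) {m n : ℕ} (hnm : n < m)
    (h : p ^ m * u = p ^ n) : IsUnit p := by
  obtain ⟨d, rfl⟩ : ∃ d, m = n + (d + 1) := ⟨m - n - 1, by omega⟩
  have h1 : p ^ n * (p * (p ^ d * u)) = p ^ n * 1 := by
    calc p ^ n * (p * (p ^ d * u)) = p ^ (n + (d + 1)) * u := by ring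
      _ = p ^ n := h
      _ = p ^ n * 1 := (mul_one _).symm
  have h2 := mul_left_cancel₀ (pow_ne_zero n hp0) h1
  exact IsUnit.of_mul_eq_one _ h2

theorem exists_threshold_generator {p : ℕ} (hp : p.Prime) (hp0 : (p : S) ≠ 0)
    (hpm : (p : S) ∈ maximalIdeal S) {a b : ℕ} (hb : 0 < b) (hab : p * b < a * (p - 1))
    (g : S) (hJ : (Ideal.span {g}) ^ b ≤ Ideal.span {(p : S) ^ a}) :
    ∃ a₀ b₀ : S, a₀ ≠ 0 ∧ Ideal.span {g} ≤ Ideal.span {(p : S) * a₀} ∧
      a₀ ^ (p - 1) = (p : S) * b₀ ∧ a₀ ∈ maximalIdeal S ∧ b₀ ∈ maximalIdeal S := by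
  have hp1 : 1 ≤ p - 1 := by have := hp.two_le; omega
  have hnu : ¬ IsUnit (p : S) := (mem_maximalIdeal _).mp hpm
  by_cases hg0 : g = 0
  · -- degenerate case: take `a₀ = p ^ 2`
    refine ⟨(p : S) ^ 2, (p : S) ^ (2 * p - 3), pow_ne_zero 2 hp0, ?_, ?_, ?_, ?_⟩
    · rw [hg0]; simp
    · rw [← pow_mul, ← pow_succ']
      congr 1
      have := hp.two_le; omega
    · exact Ideal.pow_mem_of_mem _ hpm 2 (by norm_num)
    · exact Ideal.pow_mem_of_mem _ hpm _ (by have := hp.two_le; omega)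
  have hablt : b < a := by
    by_contra hcon
    have hcon' : a ≤ b := by omega
    have : a * (p - 1) ≤ b * (p - 1) := Nat.mul_le_mul_right _ hcon'
    have h2 : b * (p - 1) ≤ p * b := by
      rw [mul_comm p b]; exact Nat.mul_le_mul_left _ (Nat.sub_le _ _)
    omega
  -- `g ^ b = p ^ a * t`
  have hgb : g ^ b ∈ Ideal.span {(p : S) ^ a} := by
    apply hJ
    rw [Ideal.span_singleton_pow]
    exact Ideal.mem_span_singleton_self _
  obtain ⟨t, ht⟩ := Ideal.mem_span_singleton'.mp hgb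
  -- Step 1: `p ∣ g`
  have hpg : (p : S) ∣ g := by
    rcases ValuationRing.dvd_total g (p : S) with h | h
    · exfalso
      obtain ⟨c, hc⟩ := h
      -- p ^ b = g ^ b * c ^ b = p ^ a * (t * c ^ b)
      have h1 : (p : S) ^ a * (t * c ^ b) = (p : S) ^ b := by
        have : (p : S) ^ b = g ^ b * c ^ b := by rw [hc, mul_pow]
        rw [this, ← ht]; ring
      exact hnu (isUnit_of_pow_mul_eq_pow hp0 hablt h1)
    · exact h
  obtain ⟨a₁, ha₁⟩ := hpg
  have ha₁0 : a₁ ≠ 0 := by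
    rintro rfl
    exact hg0 (by rw [ha₁, mul_zero])
  -- `a₁ ^ b = p ^ (a - b) * t`
  have ha₁b : a₁ ^ b = (p : S) ^ (a - b) * t := by
    have h1 : (p : S) ^ b * a₁ ^ b = (p : S) ^ b * ((p : S) ^ (a - b) * t) := by
      rw [← mul_pow, ← ha₁, ← ht, ← mul_assoc, ← pow_add]
      rw [mul_comm t]
      congr 2
      omega
    exact mul_left_cancel₀ (pow_ne_zero b hp0) h1
  -- `z := a₁ ^ (p-1)`, `z ^ b = p ^ ((a-b)(p-1)) * t ^ (p-1)` with `(a-b)(p-1) ≥ b+1`
  set z : S := a₁ ^ (p - 1) with hz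
  have hexp : b + 1 ≤ (a - b) * (p - 1) := by
    have h1 : (a - b) * (p - 1) = a * (p - 1) - b * (p - 1) := Nat.sub_mul _ _ _
    have h2 : b * (p - 1) + b = p * b := by
      have : p = (p - 1) + 1 := by omega
      calc b * (p - 1) + b = b * ((p - 1) + 1) := by ring
        _ = p * b := by rw [← this, mul_comm]
    omega
  have hzb : z ^ b = (p : S) ^ ((a - b) * (p - 1)) * t ^ (p - 1) := by
    rw [hz, ← pow_mul, mul_comm (p - 1) b, pow_mul, ha₁b, mul_pow, ← pow_mul]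
  -- Step 2: `z ∈ p 𝔪`
  have hz_not_dvd : ¬ z ∣ (p : S) := by
    rintro ⟨c, hc⟩
    have h1 : (p : S) ^ ((a - b) * (p - 1)) * (t ^ (p - 1) * c ^ b) = (p : S) ^ b := by
      have : (p : S) ^ b = z ^ b * c ^ b := by rw [hc, mul_pow]
      rw [this, hzb]; ring
    exact hnu (isUnit_of_pow_mul_eq_pow hp0 (by omega) h1)
  have hpz : (p : S) ∣ z := by
    rcases ValuationRing.dvd_total z (p : S) with h | h
    · exact absurd h hz_not_dvd
    · exact h
  obtain ⟨b₀, hb₀⟩ := hpz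
  have hb₀m : b₀ ∈ maximalIdeal S := by
    rw [mem_maximalIdeal, mem_nonunits_iff]
    intro hu
    obtain ⟨u, rfl⟩ := hu
    apply hz_not_dvd
    refine ⟨((u⁻¹ : Sˣ) : S), ?_⟩
    rw [hb₀, mul_assoc, Units.mul_inv, mul_one]
  have ha₁m : a₁ ∈ maximalIdeal S := by
    rw [mem_maximalIdeal, mem_nonunits_iff]
    intro hu
    have hzu : IsUnit z := hu.pow _
    have : z ∈ maximalIdeal S := by
      rw [hb₀]; exact Ideal.mul_mem_right _ _ hpm
    exact ((mem_maximalIdeal _).mp this) hzu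
  refine ⟨a₁, b₀, ha₁0, ?_, hb₀, ha₁m, hb₀m⟩
  rw [ha₁]

end L5c

section L5b

variable {T S : Type*} [CommRing T] [CommRing S] [IsDomain S] [IsLocalRing S]

/-- **(KER)**. -/
theorem not_exists_eq_mk_mul {p : ℕ} (hp0 : (p : S) ≠ 0) (J : Ideal S) {a₀ b₀ : S}
    (hJ : J ≤ Ideal.span {(p : S) * a₀}) (hab : a₀ ^ (p - 1) = (p : S) * b₀)
    (ha₀ : a₀ ∈ maximalIdeal S) (hb₀ : b₀ ∈ maximalIdeal S)
    (ψ : T →+* S ⧸ J) {x c : T} (hx : (p : T) = x ^ (p - 1) * c) :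
    ¬ ∃ t : S, ψ x = Ideal.Quotient.mk J (a₀ * t) := by
  rintro ⟨t, ht⟩
  obtain ⟨c', hc'⟩ := Ideal.Quotient.mk_surjective (ψ c)
  have h1 : Ideal.Quotient.mk J ((p : S)) = Ideal.Quotient.mk J ((p : S) * b₀ * t ^ (p - 1) * c') := by
    have : ψ (p : T) = ψ x ^ (p - 1) * ψ c := by rw [hx, map_mul, map_pow]
    rw [map_natCast] at this
    rw [map_natCast, this, ht, ← hc', ← map_pow, ← map_mul, mul_pow, hab]
  rw [Ideal.Quotient.eq] at h1
  have h2 := hJ h1
  obtain ⟨s, hs⟩ := Ideal.mem_span_singleton'.mp h2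
  -- `p * (1 - b₀ t^(p-1) c') = p * a₀ * s`
  have h3 : (p : S) * (1 - b₀ * t ^ (p - 1) * c') = (p : S) * (a₀ * s) := by
    rw [mul_comm s, mul_assoc] at hs
    rw [hs]; ring
  have h4 := mul_left_cancel₀ hp0 h3
  have h5 : (1 : S) = b₀ * (t ^ (p - 1) * c') + a₀ * s := by
    rw [← h4]; ring
  have h6 : (1 : S) ∈ maximalIdeal S := by
    rw [h5]
    exact Ideal.add_mem _ (Ideal.mul_mem_right _ _ hb₀) (Ideal.mul_mem_right _ _ ha₀)
  exact (Ideal.ne_top_iff_one _).mp (maximalIdeal.isMaximal S).ne_top h6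

end L5b

section L5a

variable {T : Type*} [CommRing T] [IsDomain T] [IsDiscreteValuationRing T]

theorem exists_threshold {p : ℕ} (hp : p.Prime) (hp0 : (p : T) ≠ 0) :
    ∃ a b : T, a ^ (p - 1) = (p : T) * b ∧ a ∈ maximalIdeal T ∧ b ∈ maximalIdeal T ∧ a ≠ 0 ∧
      ∀ x : T, ¬ a ∣ x → ∃ c : T, (p : T) = x ^ (p - 1) * c := by
  obtain ⟨π, hπ⟩ := IsDiscreteValuationRing.exists_irreducible T
  obtain ⟨e, u, hu⟩ := IsDiscreteValuationRing.eq_unit_mul_pow_irreducible hp0 hπ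
  have hp1 : 1 ≤ p - 1 := by have := hp.two_le; omega
  have hπm : π ∈ maximalIdeal T := by
    rw [mem_maximalIdeal, mem_nonunits_iff]; exact hπ.not_isUnit
  set s : ℕ := e / (p - 1) + 1 with hs
  have hs1 : e < s * (p - 1) := by
    rw [hs, add_mul, one_mul]
    have := Nat.lt_div_mul_add (a := e) (b := p - 1) (by omega)
    omega
  have hs2 : (s - 1) * (p - 1) ≤ e := by
    rw [hs, Nat.add_sub_cancel]
    exact Nat.div_mul_le_self e (p - 1)
  refine ⟨π ^ s, ((u⁻¹ : Tˣ) : T) * π ^ (s * (p - 1) - e), ?_, ?_, ?_, pow_ne_zero _ hπ.ne_zero, ?_⟩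
  · rw [hu, ← pow_mul]
    have : s * (p - 1) = e + (s * (p - 1) - e) := by omega
    conv_lhs => rw [this, pow_add]
    have hinv : (u : T) * ((u⁻¹ : Tˣ) : T) = 1 := Units.mul_inv u
    linear_combination (-(π ^ e * π ^ (s * (p - 1) - e))) * hinv
  · exact Ideal.pow_mem_of_mem _ hπm s (Nat.succ_pos _)
  · exact Ideal.mul_mem_left _ _ (Ideal.pow_mem_of_mem _ hπm _ (by omega))
  · intro x hx
    have hx0 : x ≠ 0 := by
      rintro rfl; exact hx (dvd_zero _)
    obtain ⟨j, v, hv⟩ := IsDiscreteValuationRing.eq_unit_mul_pow_irreducible hx0 hπ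
    have hj : j < s := by
      by_contra hcon
      apply hx
      rw [hv]
      exact Dvd.dvd.mul_left (pow_dvd_pow π (by omega)) _
    have hj2 : j * (p - 1) ≤ e := by
      calc j * (p - 1) ≤ (s - 1) * (p - 1) := Nat.mul_le_mul_right _ (by omega)
        _ ≤ e := hs2
    refine ⟨(u : T) * (((v⁻¹ : Tˣ) : T)) ^ (p - 1) * π ^ (e - j * (p - 1)), ?_⟩
    rw [hu, hv, mul_pow, ← pow_mul]
    have hinv : (v : T) * ((v⁻¹ : Tˣ) : T) = 1 := Units.mul_inv v
    have hinvp : (v : T) ^ (p - 1) * (((v⁻¹ : Tˣ) : T)) ^ (p - 1) = 1 := by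
      rw [← mul_pow, hinv, one_pow]
    have : e = j * (p - 1) + (e - j * (p - 1)) := by omega
    conv_lhs => rw [this, pow_add]
    linear_combination (-((u : T) * π ^ (j * (p - 1)) * π ^ (e - j * (p - 1)))) * hinvp

end L5a

end Fermat.Agent.TW.Font.ValLemmas
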