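import Fermat.Agent.TW.Font.LiftComplete
import Fermat.Agent.TW.Font.ValLemmas
import Fermat.Agent.TW.Hopf.RigidityRam

/-!
# S56, block LOC-flat, F3-L5 (core): Fontaine's counting argument at the level of rings

`O` a commutative ring, `B` a commutative cocommutative Hopf `O`-algebra, projective as a module.
`T` (think `O_L`) and `S` (think `O_E`) discrete valuation rings of mixed characteristic `(0, p)`
which are `O`-algebras, `S` complete.  `J ⊆ S` an ideal with `J ^ b ⊆ (p ^ a)`, `p b < a (p-1)`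
(i.e. `J ⊆ {v ≥ m}`, `m > 1 + 1/(p-1)`), and `η : T →ₐ[O] S ⧸ J`.

Then there is an INJECTIVE map from the `p`-torsion points of `B` in `T` to the points of `B` in `S`
(`exists_injective_lift`): lift `η ∘ y` (F3-L3), and use rigidity in `T` (helper5) together with
the valuation lemmas to see that distinct points have distinct lifts.
-/

set_option autoImplicit false
set_option linter.unusedSectionVars false
set_option linter.overlappingInstances false

namespace Fermat.Agent.TW.Font.PmCore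

open Coalgebra WithConv IsLocalRing

variable {O : Type*} [CommRing O] {B : Type*} [CommRing B] [HopfAlgebra O B] [IsCocomm O B]

/-- Post-composition with an algebra hom commutes with convolution powers of points. -/
theorem comp_conv_pow {T T' : Type*} [CommRing T] [Algebra O T] [CommRing T'] [Algebra O T']
    (f : T →ₐ[O] T') (y : WithConv (B →ₐ[O] T)) (n : ℕ) :
    (toConv (f.comp (y ^ n).ofConv) : WithConv (B →ₐ[O] T')) = (toConv (f.comp y.ofConv)) ^ n := by
  induction n with
  | zero =>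
    rw [pow_zero, pow_zero]
    apply WithConv.ext
    apply AlgHom.ext
    intro b
    simp [AlgHom.convOne_apply]
  | succ n ih =>
    rw [pow_succ, pow_succ, ← ih]
    apply WithConv.ext
    exact AlgHom.comp_convMul_distrib f (y ^ n) y

theorem comp_conv_one {T T' : Type*} [CommRing T] [Algebra O T] [CommRing T'] [Algebra O T']
    (f : T →ₐ[O] T') :
    (toConv (f.comp (1 : WithConv (B →ₐ[O] T)).ofConv) : WithConv (B →ₐ[O] T')) = 1 := by
  have := comp_conv_pow (B := B) f (1 : WithConv (B →ₐ[O] T)) 0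
  simpa using this

variable {T : Type*} [CommRing T] [IsDomain T] [IsDiscreteValuationRing T] [Algebra O T]
variable {S : Type*} [CommRing S] [IsDomain S] [IsDiscreteValuationRing S] [Algebra O S]

theorem exists_injective_lift [Module.Projective O B] {p : ℕ} (hp : p.Prime)
    (hpT : (p : T) ≠ 0) (hpS : (p : S) ≠ 0) (hpm : (p : S) ∈ maximalIdeal S)
    [IsAdicComplete (maximalIdeal S) S]
    (J : Ideal S) {a b : ℕ} (hb : 0 < b) (hab : p * b < a * (p - 1))
    (hJ : J ^ b ≤ Ideal.span {(p : S) ^ a}) (η : T →ₐ[O] S ⧸ J) :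
    ∃ Φ : {y : WithConv (B →ₐ[O] T) // y ^ p = 1} → (B →ₐ[O] S), Function.Injective Φ := by
  classical
  -- generator of `J` and threshold element
  obtain ⟨g, hg⟩ : ∃ g : S, J = Ideal.span {g} := (IsPrincipalIdealRing.principal J).principal
  rw [hg] at hJ
  obtain ⟨a₀, b₀, ha₀0, hJle, hab₀, ha₀m, hb₀m⟩ :=
    ValLemmas.exists_threshold_generator hp hpS hpm hb hab g hJ
  rw [← hg] at hJle
  -- uniformiser of `S`
  obtain ⟨ϖ, hϖ⟩ := IsDiscreteValuationRing.exists_irreducible S
  have hmax : maximalIdeal S = Ideal.span {ϖ} := hϖ.maximalIdeal_eq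
  have hcompl : IsAdicComplete (Ideal.span {ϖ}) S := hmax ▸ (inferInstance : IsAdicComplete (maximalIdeal S) S)
  have hreg_of_ne : ∀ x : S, x ≠ 0 → IsSMulRegular S x := by
    intro x hx u v huv
    exact mul_left_cancel₀ hx (by simpa [smul_eq_mul] using huv)
  have hϖreg : IsSMulRegular S ϖ := hreg_of_ne _ hϖ.ne_zero
  have hpa₀reg : IsSMulRegular S ((p : S) * a₀) := hreg_of_ne _ (mul_ne_zero hpS ha₀0)
  have ha₀ϖ : a₀ ∈ Ideal.span {ϖ} := hmax ▸ ha₀m
  have hb₀ϖ : b₀ ∈ Ideal.span {ϖ} := hmax ▸ hb₀m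
  -- the reduction map `ψ : T → S ⧸ (p a₀)`
  set ψ : T →ₐ[O] S ⧸ Ideal.span {(p : S) * a₀} := (Ideal.Quotient.factorₐ O hJle).comp η with hψ
  -- lifting every p-torsion point
  have hlift : ∀ y : {y : WithConv (B →ₐ[O] T) // y ^ p = 1},
      ∃ z : B →ₐ[O] S, (toConv z : WithConv (B →ₐ[O] S)) ^ p = 1 ∧
        ∀ (h : B) (s : S), Ideal.Quotient.mk (Ideal.span {(p : S) * a₀}) s = ψ (y.1 h) →
          z h - s ∈ Ideal.span {a₀} := by
    intro y
    have hyp : (toConv (ψ.comp y.1.ofConv) :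
        WithConv (B →ₐ[O] S ⧸ Ideal.span {(p : S) * a₀})) ^ p = 1 := by
      rw [← comp_conv_pow, y.2, comp_conv_one]
    exact LiftComplete.exists_lift_point_of_complete hp ϖ a₀ b₀ hϖreg ha₀ϖ hb₀ϖ hab₀ hpa₀reg
      (ψ.comp y.1.ofConv) hyp
  choose Φ hΦp hΦc using hlift
  refine ⟨Φ, ?_⟩
  -- injectivity
  intro y y' hyy'
  by_contra hne
  have hne' : y.1 ≠ y'.1 := fun h => hne (Subtype.ext h)
  -- threshold in `T`
  obtain ⟨aT, bT, habT, haTm, hbTm, haT0, hthr⟩ := ValLemmas.exists_threshold (T := T) hp hpT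
  have hsep : ∀ w : T, (∀ k : ℕ, w ∈ (Ideal.span {aT, bT} : Ideal T) ^ k) → w = 0 := by
    intro w hw
    have hle : (Ideal.span {aT, bT} : Ideal T) ≤ maximalIdeal T := by
      rw [Ideal.span_le]
      intro x hx
      rcases hx with rfl | rfl
      · exact haTm
      · exact hbTm
    have hne_top : (Ideal.span {aT, bT} : Ideal T) ≠ ⊤ := fun h =>
      (maximalIdeal.isMaximal T).ne_top (top_le_iff.mp (h ▸ hle))
    have hbot := Ideal.iInf_pow_eq_bot_of_isLocalRing (Ideal.span {aT, bT} : Ideal T) hne_top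
    have : w ∈ (⨅ i : ℕ, (Ideal.span {aT, bT} : Ideal T) ^ i) := by
      rw [Ideal.mem_iInf]; exact hw
    rw [hbot] at this
    exact this
  have hregT : ∀ w : T, (p : T) * aT * w = 0 → w = 0 := by
    intro w hw
    rcases mul_eq_zero.mp hw with h | h
    · exact absurd h (mul_ne_zero hpT haT0)
    · exact h
  -- some coordinate difference is not divisible by `aT`
  have hex : ∃ h : B, ¬ aT ∣ (y.1 h - y'.1 h) := by
    by_contra hcon
    push Not at hcon
    apply hne'
    exact Hopf.RigidityRam.eq_of_pow_eq_one_of_congr_ram hp habT hregT hsep y.1 y'.1 y.2 y'.2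
      (fun h => by
        obtain ⟨w, hw⟩ := hcon h
        exact ⟨w, hw⟩)
  obtain ⟨h, hh⟩ := hex
  obtain ⟨c, hc⟩ := hthr _ hh
  -- (KER) gives a contradiction
  apply ValLemmas.not_exists_eq_mk_mul hpS (Ideal.span {(p : S) * a₀}) le_rfl hab₀ ha₀m hb₀m
    (ψ : T →+* S ⧸ Ideal.span {(p : S) * a₀}) hc
  obtain ⟨s, hs⟩ := Ideal.Quotient.mk_surjective (ψ (y.1 h))
  obtain ⟨s', hs'⟩ := Ideal.Quotient.mk_surjective (ψ (y'.1 h))
  have h1 := hΦc y h s hs
  have h2 := hΦc y' h s' hs'
  rw [hyy'] at h1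
  have h3 : s - s' ∈ Ideal.span {a₀} := by
    have : s - s' = (Φ y' h - s') - (Φ y' h - s) := by ring
    rw [this]
    exact Ideal.sub_mem _ h2 h1
  obtain ⟨t, ht⟩ := Ideal.mem_span_singleton'.mp h3
  refine ⟨t, ?_⟩
  change ψ (y.1 h - y'.1 h) = _
  rw [map_sub, ← hs, ← hs', ← map_sub, ← ht, mul_comm t a₀]

end Fermat.Agent.TW.Font.PmCore
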